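import Mathlib

/-!
# GR-D, vertical package: Euler's formula and unramifiedness at a valuation ring

Pure algebra.  `E = K(V)`, `O` a valuation subring of `E`, `V` a root of a monic polynomial `P` with
`O`-integral coefficients and `P'(V)` a unit of `O`.  Then the trace dual of `O` is `O`, and the same
holds for every intermediate field `K ⊆ F ⊆ E`.
-/

set_option autoImplicit false

namespace Fermat.Agent.GR.D.Vert

open Polynomial

theorem mem_of_monic_root {E : Type*} [Field E] (O : ValuationSubring E) (p : E[X]) (hm : p.Monic)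
    (hc : ∀ i, p.coeff i ∈ O) (x : E) (h : p.eval x = 0) : x ∈ O := by
  have hl : p ∈ Polynomial.lifts (algebraMap O E) :=
    (lifts_iff_coeff_lifts p).mpr (fun n => ⟨⟨_, hc n⟩, rfl⟩)
  obtain ⟨q, hq, -, hqm⟩ := lifts_and_natDegree_eq_and_monic hl hm
  have hint : IsIntegral O x := ⟨q, hqm, by rw [← eval_map, hq, h]⟩
  obtain ⟨y, rfl⟩ := IsIntegrallyClosed.isIntegral_iff.mp hint
  exact y.2

theorem eval_mem_of_coeff_mem {E : Type*} [Field E] (O : ValuationSubring E) (p : E[X])
    (hc : ∀ i, p.coeff i ∈ O) {x : E} (hx : x ∈ O) : p.eval x ∈ O := by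
  rw [eval_eq_sum_range]
  exact sum_mem (fun i _ => mul_mem (hc i) (pow_mem hx i))

theorem mem_of_trace_mem {K E : Type*} [Field K] [Field E] [Algebra K E] [Algebra.IsSeparable K E]
    (pb : PowerBasis K E) (O : ValuationSubring E)
    (P : K[X]) (hPm : P.Monic) (hPc : ∀ i, algebraMap K E (P.coeff i) ∈ O)
    (hroot : aeval pb.gen P = 0) (hder0 : aeval pb.gen (derivative P) ≠ 0)
    (hder : (aeval pb.gen (derivative P))⁻¹ ∈ O)
    (x : E) (hx : ∀ i : ℕ, algebraMap K E (Algebra.trace K E (x * pb.gen ^ i)) ∈ O) : x ∈ O := by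
  classical
  haveI : FiniteDimensional K E := pb.finite
  set V := pb.gen with hVdef
  let OK : ValuationSubring K := O.comap (algebraMap K E)
  have hV : V ∈ O := mem_of_monic_root O (P.map (algebraMap K E)) (hPm.map _)
    (by intro i; rw [coeff_map]; exact hPc i) V (by rw [eval_map_algebraMap]; exact hroot)
  obtain ⟨P', hP', -, hP'm⟩ := lifts_and_natDegree_eq_and_monic (p := P) (f := algebraMap OK K)
    ((lifts_iff_coeff_lifts P).mpr fun n => ⟨⟨_, hPc n⟩, rfl⟩) hPm
  obtain ⟨Q, hQ⟩ : minpoly K V ∣ P := minpoly.dvd K V hroot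
  have hmm : (minpoly K V).Monic := minpoly.monic pb.isIntegral_gen
  have hQm : Q.Monic := hmm.of_mul_monic_left (hQ ▸ hPm)
  obtain ⟨m', hm'⟩ := IsIntegrallyClosed.eq_map_mul_C_of_dvd K hP'm (g := minpoly K V)
    (by rw [hP']; exact ⟨Q, hQ⟩)
  obtain ⟨Q', hQ'⟩ := IsIntegrallyClosed.eq_map_mul_C_of_dvd K hP'm (g := Q)
    (by rw [hP']; exact ⟨_, by rw [hQ, mul_comm]⟩)
  rw [hmm.leadingCoeff, C_1, mul_one] at hm'
  rw [hQm.leadingCoeff, C_1, mul_one] at hQ'
  have hmc : ∀ i, algebraMap K E ((minpoly K V).coeff i) ∈ O := by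
    intro i
    rw [← hm', coeff_map]
    exact (m'.coeff i).2
  have hQc : ∀ i, algebraMap K E (Q.coeff i) ∈ O := by
    intro i
    rw [← hQ', coeff_map]
    exact (Q'.coeff i).2
  have hd : aeval V (derivative P) = aeval V (derivative (minpoly K V)) * aeval V Q := by
    rw [hQ, derivative_mul, map_add, map_mul, map_mul, minpoly.aeval, zero_mul, add_zero]
  have hQV : aeval V Q ∈ O := by
    rw [← eval_map_algebraMap]
    exact eval_mem_of_coeff_mem O _ (by intro i; rw [coeff_map]; exact hQc i) hV
  have hδinv : (aeval V (derivative (minpoly K V)))⁻¹ ∈ O := by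
    have h1 : aeval V (derivative (minpoly K V)) ≠ 0 := fun h => hder0 (by rw [hd, h, zero_mul])
    have h2 : aeval V Q ≠ 0 := fun h => hder0 (by rw [hd, h, mul_zero])
    have : (aeval V (derivative (minpoly K V)))⁻¹ = aeval V Q * (aeval V (derivative P))⁻¹ := by
      rw [hd]
      field_simp
    rw [this]
    exact mul_mem hQV hder
  have hdiv : ∀ d i, (minpolyDiv K V).natDegree < i + d → (minpolyDiv K V).coeff i ∈ O := by
    intro d
    induction d with
    | zero =>
      intro i hi
      rw [coeff_eq_zero_of_natDegree_lt (by simpa using hi)]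
      exact O.zero_mem
    | succ d ih =>
      intro i hi
      rw [coeff_minpolyDiv]
      exact add_mem (hmc _) (mul_mem (ih (i + 1) (by omega)) hV)
  rw [← pb.basis.traceDual.sum_repr x]
  refine sum_mem fun i _ => ?_
  rw [Module.Basis.traceDual_repr_apply, Module.Basis.traceDual_powerBasis_eq, Algebra.smul_def,
    Algebra.traceForm_apply, pb.basis_eq_pow, div_eq_mul_inv]
  exact mul_mem (hx i) (mul_mem (hdiv ((minpolyDiv K V).natDegree + 1) i (by omega)) hδinv)

/-- The same for an intermediate field `K ⊆ F ⊆ E`. -/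
theorem mem_of_trace_mem_of_tower {K F E : Type*} [Field K] [Field F] [Field E] [Algebra K F]
    [Algebra F E] [Algebra K E] [IsScalarTower K F E] [Algebra.IsSeparable K E]
    (pb : PowerBasis K E) (O : ValuationSubring E)
    (P : K[X]) (hPm : P.Monic) (hPc : ∀ i, algebraMap K E (P.coeff i) ∈ O)
    (hroot : aeval pb.gen P = 0) (hder0 : aeval pb.gen (derivative P) ≠ 0)
    (hder : (aeval pb.gen (derivative P))⁻¹ ∈ O)
    (x : F) (hx : ∀ c : F, algebraMap F E c ∈ O →
      algebraMap K E (Algebra.trace K F (x * c)) ∈ O) : algebraMap F E x ∈ O := by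
  haveI : FiniteDimensional K E := pb.finite
  haveI : FiniteDimensional K F := FiniteDimensional.left K F E
  haveI : FiniteDimensional F E := FiniteDimensional.right K F E
  let OK : ValuationSubring K := O.comap (algebraMap K E)
  refine mem_of_trace_mem pb O P hPm hPc hroot hder0 hder _ fun i => ?_
  have h1 : Algebra.trace K E (algebraMap F E x * pb.gen ^ i)
      = Algebra.trace K F (x * Algebra.trace F E (pb.gen ^ i)) := by
    rw [← Algebra.trace_trace (S := F), ← Algebra.smul_def, map_smul, smul_eq_mul]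
  rw [h1]
  apply hx
  -- the trace of an integral element is integral
  letI : Algebra OK F := ((algebraMap K F).comp (algebraMap OK K)).toAlgebra
  letI : Algebra OK E := ((algebraMap K E).comp (algebraMap OK K)).toAlgebra
  haveI : IsScalarTower OK K F := IsScalarTower.of_algebraMap_eq fun _ => rfl
  haveI : IsScalarTower OK K E := IsScalarTower.of_algebraMap_eq fun _ => rfl
  haveI : IsScalarTower OK F E := IsScalarTower.of_algebraMap_eq fun a => by
    show algebraMap K E (algebraMap OK K a) = algebraMap F E (algebraMap K F (algebraMap OK K a))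
    rw [← IsScalarTower.algebraMap_apply K F E]
  obtain ⟨P', hP', -, hP'm⟩ := lifts_and_natDegree_eq_and_monic (p := P) (f := algebraMap OK K)
    ((lifts_iff_coeff_lifts P).mpr fun n => ⟨⟨_, hPc n⟩, rfl⟩) hPm
  have hVint : IsIntegral OK pb.gen := ⟨P', hP'm, by
    rw [IsScalarTower.algebraMap_eq OK K E, ← eval₂_map, hP']
    exact hroot⟩
  have hint : IsIntegral OK (Algebra.trace F E (pb.gen ^ i)) :=
    Algebra.isIntegral_trace (hVint.pow i)
  obtain ⟨p, hpm, hp⟩ := hint.map (IsScalarTower.toAlgHom OK F E)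
  refine mem_of_monic_root O (p.map (algebraMap OK E)) (hpm.map _) ?_ _ ?_
  · intro n
    rw [coeff_map]
    exact (p.coeff n).2
  · rw [eval_map]
    exact hp

end Fermat.Agent.GR.D.Vert
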