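import Mathlib
import Fermat.Agent.GR.D.Vert.Euler

/-!
# GR-D, vertical package: self-duality of a Gauss ring, abstract form

`K ⊆ F ⊆ S` fields of characteristic zero, `V ∈ S` a root of a monic `P ∈ K[X]`, `F ⊆ K[V]`,
`G` a subring of `S` inducing a valuation ring on `F(V)`, `P` has coefficients in `G` and `P'(V)`
is a unit of `G`.  Then the trace dual of `G ∩ F` over `G ∩ K` is contained in `G`.
-/

set_option autoImplicit false

namespace Fermat.Agent.GR.D.Vert

open Polynomial IntermediateField

theorem mem_of_trace_mem_subring {K F S : Type*} [Field K] [Field F] [Field S] [Algebra K F]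
    [Algebra F S] [Algebra K S] [IsScalarTower K F S] [CharZero K] (V : S) (G : Subring S)
    (hval : ∀ x ∈ F⟮V⟯, x ∈ G ∨ x⁻¹ ∈ G)
    (P : K[X]) (hPm : P.Monic) (hPc : ∀ i, algebraMap K S (P.coeff i) ∈ G)
    (hroot : aeval V P = 0) (hder0 : aeval V (derivative P) ≠ 0)
    (hder : (aeval V (derivative P))⁻¹ ∈ G)
    (hspan : ∀ y : F, algebraMap F S y ∈ Algebra.adjoin K {V})
    (x : F) (hx : ∀ c : F, algebraMap F S c ∈ G →
      algebraMap K S (Algebra.trace K F (x * c)) ∈ G) : algebraMap F S x ∈ G := by
  classical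
  let O : ValuationSubring F⟮V⟯ :=
    { carrier := {y | (y : S) ∈ G}
      mul_mem' := fun {a b} ha hb => G.mul_mem ha hb
      one_mem' := G.one_mem
      add_mem' := fun {a b} ha hb => G.add_mem ha hb
      zero_mem' := G.zero_mem
      neg_mem' := fun {a} ha => G.neg_mem ha
      mem_or_inv_mem' := fun y => hval y y.2 }
  have hO : ∀ y : F⟮V⟯, y ∈ O ↔ (y : S) ∈ G := fun _ => Iff.rfl
  let VE : F⟮V⟯ := AdjoinSimple.gen F V
  have hVE : (VE : S) = V := AdjoinSimple.coe_gen F V
  have hinj : Function.Injective (algebraMap F⟮V⟯ S) := (algebraMap F⟮V⟯ S).injective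
  have : IsScalarTower K F⟮V⟯ S := IsScalarTower.of_algebraMap_eq fun _ => rfl
  have haev : ∀ Q : K[X], algebraMap F⟮V⟯ S (aeval VE Q) = aeval V Q := by
    intro Q
    rw [← aeval_algebraMap_apply]
    rfl
  have hrootE : aeval VE P = 0 := by
    apply hinj
    rw [haev, hroot, map_zero]
  have hintK : IsIntegral K VE := ⟨P, hPm, hrootE⟩
  have hintF : IsIntegral F V := by
    have : IsIntegral K V := ⟨P, hPm, hroot⟩
    exact this.tower_top
  have htop : Algebra.adjoin K {VE} = ⊤ := by
    rw [eq_top_iff]
    intro y _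
    have h1 : (y : S) ∈ Algebra.adjoin F {V} := by
      rw [← IntermediateField.adjoin_simple_toSubalgebra_of_isAlgebraic hintF.isAlgebraic]
      exact y.2
    have h2 : ∀ z ∈ Algebra.adjoin F {V}, z ∈ Algebra.adjoin K {V} := by
      intro z hz
      induction hz using Algebra.adjoin_induction with
      | mem w hw =>
        rw [Set.mem_singleton_iff] at hw
        rw [hw]
        exact Algebra.self_mem_adjoin_singleton K V
      | algebraMap r => exact hspan r
      | add a b _ _ ha hb => exact add_mem ha hb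
      | mul a b _ _ ha hb => exact mul_mem ha hb
    have h3 := h2 _ h1
    rw [Algebra.adjoin_singleton_eq_range_aeval] at h3 ⊢
    obtain ⟨Q, hQ⟩ := h3
    refine ⟨Q, ?_⟩
    apply hinj
    have := haev Q
    exact this.trans hQ
  let pb : PowerBasis K F⟮V⟯ := PowerBasis.ofAdjoinEqTop hintK htop
  have hgen : pb.gen = VE := PowerBasis.ofAdjoinEqTop_gen hintK htop
  have : FiniteDimensional K F⟮V⟯ := pb.finite
  have hres := mem_of_trace_mem_of_tower (K := K) (F := F) (E := F⟮V⟯) pb O P hPm
    (fun i => hPc i) (by rw [hgen]; exact hrootE)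
    (by
      rw [hgen]
      intro h
      apply hder0
      rw [← haev, h, map_zero])
    (by
      rw [hgen, hO]
      have : (((aeval VE (derivative P))⁻¹ : F⟮V⟯) : S) = (aeval V (derivative P))⁻¹ := by
        rw [← haev]
        rfl
      rw [this]
      exact hder)
    x (fun c hc => hx c hc)
  exact hres

end Fermat.Agent.GR.D.Vert
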