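import Fermat.Agent.S28.Descent
import Fermat.Agent.S28.Analytic

/-!
# GR-D, vertical package: the model `(V, W)` over `ℤ_(ℓ)` with its reduction mod `ℓ`

A strengthening of `S28.hasBasisMod_of_analyticData`: we also record the polynomial `W`, the
interpolation identities and the fact that `V` is a simple root of `W` modulo `ℓ`.
-/

set_option autoImplicit false

namespace Fermat.Agent.GR.D.Vert

open ModularCurve Polynomial Fermat.Agent.S28

noncomputable section

theorem derivative_eval_of_fac {A : Type*} [CommRing A] (v₀ : A) (vs : Multiset A) :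
    (derivative ((X - C v₀) * (vs.map fun v => X - C v).prod)).eval v₀
      = (vs.map fun v => v₀ - v).prod := by
  rw [derivative_mul]
  simp only [derivative_sub, derivative_X, derivative_C, sub_zero, one_mul, eval_add, eval_mul,
    eval_sub, eval_X, eval_C, sub_self, zero_mul, add_zero]
  rw [Polynomial.eval_multiset_prod, Multiset.map_map]
  congr 1
  refine Multiset.map_congr rfl fun v _ => ?_
  simp

/-- The model over `ℤ_(ℓ)`. -/
theorem exists_model (N : ℕ) [NeZero N] (ℓ : ℕ) [Fact ℓ.Prime] (hℓN : ¬ ℓ ∣ N) :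
    ∃ (V : LaurentSeries ℤ) (W₁ : (Rl ℓ)[X][X]),
      W₁.Monic ∧
      W₁.eval₂ (evP (Rl ℓ) (jqModC (Rl ℓ))) (coeffMap (Int.castRingHom (Rl ℓ)) V) = 0 ∧
      (∀ (d : ℕ) [NeZero d], d ∣ N → ∃ G₀ : ℚ[X][X],
        G₀.eval₂ (evP ℚ jq) (coeffMap (Int.castRingHom ℚ) V)
          = qExpand ℚ d jq *
            (derivative (W₁.map (Polynomial.mapRingHom (GaloisRep.ratLocalizedAt ℓ).subtype))).eval₂
              (evP ℚ jq) (coeffMap (Int.castRingHom ℚ) V)) ∧
      (∀ u : Fin W₁.natDegree → (ZMod ℓ)[X],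
        ∑ i, evP (ZMod ℓ) (jqModC (ZMod ℓ)) (u i) *
          coeffMap (Int.castRingHom (ZMod ℓ)) V ^ (i : ℕ) = 0 → u = 0) ∧
      (derivative (W₁.map (Polynomial.mapRingHom (resid ℓ)))).eval₂
        (evP (ZMod ℓ) (jqModC (ZMod ℓ))) (coeffMap (Int.castRingHom (ZMod ℓ)) V) ≠ 0 := by
  obtain ⟨D⟩ := nonempty_analyticData N
  obtain ⟨W₀, hW, hW₀m, hW₀root, hder, hG⟩ := exists_rational_model D
  obtain ⟨O, κ, _, _, res, hN, hζ, hOQ⟩ := exists_good_subring ℓ N hℓN
  let sQ : Rl ℓ →+* ℚ := (GaloisRep.ratLocalizedAt ℓ).subtype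
  have hsQ : Function.Injective sQ := Subtype.val_injective
  -- the model over `ℤ_(ℓ)`
  obtain ⟨W₁, hW₁⟩ : ∃ W₁ : (Rl ℓ)[X][X], W₁.map (Polynomial.mapRingHom sQ) = W₀ := by
    apply exists_map_mapRingHom_eq
    intro b a
    have h1 := coeff_W_mem D O hN hζ b a
    rw [hW, coeff_map, coe_mapRingHom, coeff_map] at h1
    exact ⟨⟨_, (hOQ _).mp h1⟩, rfl⟩
  have hW₁m : W₁.Monic := by
    have hinj : Function.Injective (Polynomial.mapRingHom sQ) := Polynomial.map_injective sQ hsQ
    apply Polynomial.monic_of_injective hinj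
    rw [hW₁]
    exact hW₀m
  have hroot₁ : W₁.eval₂ (evP (Rl ℓ) (jqModC (Rl ℓ))) (coeffMap (Int.castRingHom (Rl ℓ)) D.V)
      = 0 := by
    apply coeffMap_injective sQ hsQ
    rw [map_eval₂_evP sQ (coeffMap sQ) (coeffMap_algebraMap' sQ sQ fun _ => rfl), hW₁,
      S28.coeffMap_jqModC, coeffMap_coeffMap,
      coeffMap_congr (RingHom.ext_int _ (Int.castRingHom ℚ)), map_zero]
    exact hW₀root
  -- reduction
  let _ : Algebra (ZMod ℓ) κ := ZMod.algebra κ ℓ
  let gO : Rl ℓ →+* O := ((algebraMap ℚ ℂ).comp sQ).codRestrict O (fun x => (hOQ _).mpr x.2)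
  have hgO : O.subtype.comp gO = (algebraMap ℚ ℂ).comp sQ := rfl
  obtain ⟨Vs', hVs', hfacC⟩ := exists_lift_factorisation D O hN hζ
  have hfacO : (W₁.map (Polynomial.mapRingHom gO)).map (evP O (JN O N))
      = (X - C (iotaN O N D.V)) * (Vs'.map fun v => X - C v).prod := by
    apply Polynomial.map_injective (coeffMap O.subtype)
      (coeffMap_injective _ Subtype.val_injective)
    rw [← hfacC, map_map_evP O.subtype (coeffMap O.subtype)
      (coeffMap_algebraMap' O.subtype O.subtype fun _ => rfl), coeffMap_JN,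
      map_mapRingHom_comp, hgO, ← map_mapRingHom_comp, hW₁, ← hW]
    rfl
  have hfacκ : (W₁.map (Polynomial.mapRingHom (resid ℓ))).map (evP (ZMod ℓ) (JN κ N))
      = (X - C (iotaN κ N D.V)) * ((Vs'.map (coeffMap res)).map fun v => X - C v).prod := by
    have h1 := congrArg (Polynomial.map (coeffMap res)) hfacO
    rw [map_map_evP res (coeffMap res) (coeffMap_algebraMap' res res fun _ => rfl), coeffMap_JN,
      map_mapRingHom_comp] at h1
    have h2 := map_map_evP (algebraMap (ZMod ℓ) κ) (RingHom.id (LaurentSeries κ))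
      (fun a => by
        rw [algebraMap_laurent_eq_single, algebraMap_laurent_eq_single]
        rfl) (JN κ N) (W₁.map (Polynomial.mapRingHom (resid ℓ)))
    rw [Polynomial.map_id, map_mapRingHom_comp,
      ringHom_Rl_ext' ℓ ((algebraMap (ZMod ℓ) κ).comp (resid ℓ)) (res.comp gO),
      RingHom.id_apply] at h2
    rw [h2, h1, Polynomial.map_mul, Polynomial.map_sub, Polynomial.map_X, Polynomial.map_C,
      Polynomial.map_multiset_prod, Multiset.map_map, coeffMap_iotaN, Multiset.map_map]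
    congr 2
    refine Multiset.map_congr rfl fun v _ => ?_
    simp
  have hvsκ : ∀ v ∈ Vs'.map (coeffMap res), v ≠ 0 ∧ ∀ m : ℤ, m ≤ 0 → v.coeff m = 0 := by
    intro v hv
    obtain ⟨v', hv', rfl⟩ := Multiset.mem_map.mp hv
    have hvD : coeffMap O.subtype v' ∈ D.Vs := hVs' ▸ Multiset.mem_map_of_mem _ hv'
    constructor
    · obtain ⟨m, hm0, hminv⟩ := D.hunit O hN hζ _ hvD
      intro h0
      have h1 : res (v'.coeff m) = 0 := by
        rw [← coeffMap_coeff, h0]
        rfl
      have h2 : v'.coeff m * ⟨_, hminv⟩ = 1 := Subtype.ext (mul_inv_cancel₀ hm0)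
      have h3 := congrArg res h2
      rw [map_mul, h1, zero_mul, map_one] at h3
      exact zero_ne_one h3
    · intro m hm
      have h1 : v'.coeff m = 0 := Subtype.ext (D.hpos _ hvD m hm)
      rw [coeffMap_coeff, h1, map_zero]
  have hWbm : (W₁.map (Polynomial.mapRingHom (resid ℓ))).Monic := hW₁m.map _
  have hJκ := exists_coeff_ne_zero_of_pole (k := ZMod ℓ) _ (order_qExpand_jqModC_neg κ N)
  have hirr := irreducible_of_roots (k := ZMod ℓ) (κ := κ) (JN κ N) hJκ
    (W₁.map (Polynomial.mapRingHom (resid ℓ))) hWbm (iotaN κ N D.V) (Vs'.map (coeffMap res))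
    hvsκ hfacκ
  have hnot := not_mem_of_roots (k := ZMod ℓ) (κ := κ) (JN κ N) hJκ
    (W₁.map (Polynomial.mapRingHom (resid ℓ))) (iotaN κ N D.V) (Vs'.map (coeffMap res))
    hvsκ hfacκ
  have hrootb : (W₁.map (Polynomial.mapRingHom (resid ℓ))).eval₂
      (evP (ZMod ℓ) (jqModC (ZMod ℓ))) (coeffMap (Int.castRingHom (ZMod ℓ)) D.V) = 0 := by
    have h := congrArg (coeffMap (resid ℓ)) hroot₁
    rw [map_eval₂_evP (resid ℓ) (coeffMap (resid ℓ))
      (coeffMap_algebraMap' (resid ℓ) (resid ℓ) fun _ => rfl), S28.coeffMap_jqModC,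
      coeffMap_coeffMap, coeffMap_congr (RingHom.ext_int _ (Int.castRingHom (ZMod ℓ))),
      map_zero] at h
    exact h
  refine ⟨D.V, W₁, hW₁m, hroot₁, ?_, ?_, ?_⟩
  · intro d _ hd
    rw [hW₁]
    exact hG d hd
  · intro u hu
    exact eq_zero_of_sum_mul_pow_eq_zero (evP (ZMod ℓ) (jqModC (ZMod ℓ)))
      (evP_injective_of_pole _ (order_jqModC_neg _)) _ hWbm hirr _ hrootb _
      (hW₁m.natDegree_map _).symm u hu
  · -- simple root
    intro h0
    let θ : LaurentSeries (ZMod ℓ) →+* LaurentSeries κ :=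
      (qExpand κ N).comp (coeffMap (algebraMap (ZMod ℓ) κ))
    have hθ : ∀ a, θ (algebraMap (ZMod ℓ) (LaurentSeries (ZMod ℓ)) a)
        = algebraMap (ZMod ℓ) (LaurentSeries κ) (RingHom.id _ a) := by
      intro a
      show qExpand κ N (coeffMap (algebraMap (ZMod ℓ) κ) _) = _
      rw [coeffMap_algebraMap' (RingHom.id (ZMod ℓ)) (algebraMap (ZMod ℓ) κ) (fun _ => rfl),
        qExpand_algebraMap]
    have h1 := congrArg θ h0
    rw [map_eval₂_evP (RingHom.id (ZMod ℓ)) θ hθ, map_zero] at h1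
    have hid : Polynomial.mapRingHom (RingHom.id (ZMod ℓ)) = RingHom.id _ := by
      ext <;> simp
    rw [hid, Polynomial.map_id] at h1
    have hθj : θ (jqModC (ZMod ℓ)) = JN κ N := by
      show qExpand κ N (coeffMap _ _) = _
      rw [S28.coeffMap_jqModC]
    have hθV : θ (coeffMap (Int.castRingHom (ZMod ℓ)) D.V) = iotaN κ N D.V := by
      show qExpand κ N (coeffMap _ (coeffMap _ _)) = _
      rw [coeffMap_coeffMap, coeffMap_congr (RingHom.ext_int _ (Int.castRingHom κ))]
      rfl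
    rw [hθj, hθV, Polynomial.eval₂_eq_eval_map, ← Polynomial.derivative_map, hfacκ,
      derivative_eval_of_fac] at h1
    obtain ⟨v, hv, hv0⟩ := Multiset.mem_map.mp (Multiset.prod_eq_zero_iff.mp h1)
    exact hnot ((sub_eq_zero.mp hv0) ▸ hv)

end

end Fermat.Agent.GR.D.Vert
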