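import Fermat.Agent.S28.DescBasic
import Fermat.Agent.GR.E.Defs

/-!
# GR-D, vertical package, part 0: the Gauss ring inside `L((q))`

`R` a discrete valuation ring, `L = Frac R`, `k` its residue field.  `IsGInt x` says that
`x : L((q))` lies in the localisation of `R((q))` at the prime `ϖ R((q))`; `gredFun` is the reduction
map to `k((q))`.
-/

set_option autoImplicit false
set_option linter.unusedSectionVars false

namespace Fermat.Agent.GR.D.Vert

open ModularCurve Polynomial Fermat.Agent.S28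

noncomputable section

theorem coeffMap_C {A B : Type*} [CommRing A] [CommRing B] (f : A →+* B) (a : A) :
    coeffMap f (HahnSeries.C a) = HahnSeries.C (f a) := coeffMap_single f 0 a

variable (R : Type*) [CommRing R] [IsDomain R] [IsDiscreteValuationRing R]
variable (L : Type*) [Field L] [Algebra R L] [IsFractionRing R L]

theorem embL_injective : Function.Injective (embL R L) :=
  coeffMap_injective _ (IsFractionRing.injective R L)

variable {R}

theorem exists_eq_C_mul {ϖ : R} (hϖ : Irreducible ϖ) {a : LaurentSeries R} (h : redL R a = 0) :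
    ∃ a' : LaurentSeries R, a = HahnSeries.C ϖ * a' := by
  have hd : ∀ n, ϖ ∣ a.coeff n := by
    intro n
    have h1 : IsLocalRing.residue R (a.coeff n) = 0 := by
      rw [← coeffMap_coeff, h]
      rfl
    rw [IsLocalRing.residue_eq_zero_iff, hϖ.maximalIdeal_eq, Ideal.mem_span_singleton] at h1
    exact h1
  choose c hc using hd
  refine ⟨⟨c, a.isPWO_support.mono ?_⟩, ?_⟩
  · intro n hn
    simp only [Function.mem_support, ne_eq] at hn
    rw [HahnSeries.mem_support, hc n]
    exact mul_ne_zero hϖ.ne_zero hn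
  · ext n
    rw [HahnSeries.C_mul_eq_smul, HahnSeries.coeff_smul, smul_eq_mul]
    exact hc n

theorem redL_C_eq_zero {ϖ : R} (hϖ : Irreducible ϖ) : redL R (HahnSeries.C ϖ) = 0 := by
  rw [coeffMap_C]
  have : IsLocalRing.residue R ϖ = 0 := by
    rw [IsLocalRing.residue_eq_zero_iff, hϖ.maximalIdeal_eq]
    exact Ideal.mem_span_singleton_self ϖ
  rw [this, map_zero]

theorem exists_eq_C_pow_mul_aux {ϖ : R} (hϖ : Irreducible ϖ) (d : ℕ) :
    ∀ a : LaurentSeries R, (∃ n, ¬ ϖ ^ d ∣ a.coeff n) →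
      ∃ (m : ℕ) (a' : LaurentSeries R), a = HahnSeries.C ϖ ^ m * a' ∧ redL R a' ≠ 0 := by
  induction d with
  | zero =>
    rintro a ⟨n, hn⟩
    exact absurd (by simp) hn
  | succ d ih =>
    rintro a ⟨n, hn⟩
    by_cases h0 : redL R a = 0
    · obtain ⟨a1, rfl⟩ := exists_eq_C_mul hϖ h0
      obtain ⟨m, a', h1, h2⟩ := ih a1 ⟨n, fun hdvd => hn (by
        rw [HahnSeries.C_mul_eq_smul, HahnSeries.coeff_smul, smul_eq_mul, pow_succ']
        exact mul_dvd_mul_left ϖ hdvd)⟩
      exact ⟨m + 1, a', by rw [h1, pow_succ']; ring, h2⟩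
    · exact ⟨0, a, by simp, h0⟩

theorem exists_eq_C_pow_mul {ϖ : R} (hϖ : Irreducible ϖ) {a : LaurentSeries R} (ha : a ≠ 0) :
    ∃ (m : ℕ) (a' : LaurentSeries R), a = HahnSeries.C ϖ ^ m * a' ∧ redL R a' ≠ 0 := by
  obtain ⟨n, hn⟩ : ∃ n, a.coeff n ≠ 0 := by
    by_contra hcon
    exact ha (HahnSeries.ext (funext fun n => by_contra fun hn => hcon ⟨n, hn⟩))
  obtain ⟨m, u, hu⟩ := IsDiscreteValuationRing.eq_unit_mul_pow_irreducible hn hϖ
  refine exists_eq_C_pow_mul_aux hϖ (m + 1) a ⟨n, ?_⟩
  rw [hu]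
  intro hdvd
  rw [pow_succ, mul_comm (u : R)] at hdvd
  have h1 := (mul_dvd_mul_iff_left (pow_ne_zero m hϖ.ne_zero)).mp hdvd
  exact hϖ.not_isUnit (isUnit_of_dvd_unit h1 u.isUnit)

variable (R) {L}

/-- `x` lies in the localisation of `R((q))` at the prime ideal generated by the uniformizer. -/
def IsGInt (x : LaurentSeries L) : Prop :=
  ∃ s y : LaurentSeries R, redL R s ≠ 0 ∧ embL R L s * x = embL R L y

variable {R}

theorem isGInt_emb (y : LaurentSeries R) : IsGInt R (embL R L y) :=
  ⟨1, y, by rw [map_one]; exact one_ne_zero, by rw [map_one, one_mul]⟩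

theorem IsGInt.add {x x' : LaurentSeries L} (h : IsGInt R x) (h' : IsGInt R x') :
    IsGInt R (x + x') := by
  obtain ⟨s, y, hs, hy⟩ := h
  obtain ⟨s', y', hs', hy'⟩ := h'
  refine ⟨s * s', s' * y + s * y', by rw [map_mul]; exact mul_ne_zero hs hs', ?_⟩
  rw [map_mul, map_add, map_mul, map_mul, ← hy, ← hy']
  ring

theorem IsGInt.mul {x x' : LaurentSeries L} (h : IsGInt R x) (h' : IsGInt R x') :
    IsGInt R (x * x') := by
  obtain ⟨s, y, hs, hy⟩ := h
  obtain ⟨s', y', hs', hy'⟩ := h'
  refine ⟨s * s', y * y', by rw [map_mul]; exact mul_ne_zero hs hs', ?_⟩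
  rw [map_mul, map_mul, ← hy, ← hy']
  ring

theorem IsGInt.neg {x : LaurentSeries L} (h : IsGInt R x) : IsGInt R (-x) := by
  obtain ⟨s, y, hs, hy⟩ := h
  exact ⟨s, -y, hs, by rw [map_neg, ← hy]; ring⟩

variable (R L)

/-- The Gauss ring `R((q))_(ϖ)` inside `L((q))`. -/
def gaussQ : Subring (LaurentSeries L) where
  carrier := {x | IsGInt R x}
  mul_mem' := IsGInt.mul
  add_mem' := IsGInt.add
  neg_mem' := IsGInt.neg
  one_mem' := by simpa using isGInt_emb (L := L) (1 : LaurentSeries R)
  zero_mem' := by simpa using isGInt_emb (L := L) (0 : LaurentSeries R)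

variable {L}

open Classical in
/-- Reduction of a Gauss-integral series (junk value `0` otherwise). -/
def gredFun (x : LaurentSeries L) : LaurentSeries (IsLocalRing.ResidueField R) :=
  if h : IsGInt R x then redL R h.choose_spec.choose / redL R h.choose else 0

variable {R}

theorem gredFun_eq {x : LaurentSeries L} {s y : LaurentSeries R} (hs : redL R s ≠ 0)
    (h : embL R L s * x = embL R L y) : gredFun R x = redL R y / redL R s := by
  have hx : IsGInt R x := ⟨s, y, hs, h⟩
  rw [gredFun, dif_pos hx]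
  obtain ⟨hs0, h0⟩ := hx.choose_spec.choose_spec
  set s0 := hx.choose
  set y0 := hx.choose_spec.choose
  rw [div_eq_div_iff hs0 hs, ← map_mul, ← map_mul]
  congr 1
  apply embL_injective R L
  rw [map_mul, map_mul, ← h0, ← h]
  ring

theorem gredFun_emb (y : LaurentSeries R) : gredFun R (embL R L y) = redL R y := by
  rw [gredFun_eq (s := 1) (y := y) (by rw [map_one]; exact one_ne_zero) (by rw [map_one, one_mul]),
    map_one, div_one]

theorem gredFun_add {x x' : LaurentSeries L} (h : IsGInt R x) (h' : IsGInt R x') :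
    gredFun R (x + x') = gredFun R x + gredFun R x' := by
  obtain ⟨s, y, hs, hy⟩ := h
  obtain ⟨s', y', hs', hy'⟩ := h'
  rw [gredFun_eq hs hy, gredFun_eq hs' hy',
    gredFun_eq (s := s * s') (y := s' * y + s * y') (by rw [map_mul]; exact mul_ne_zero hs hs')
      (by rw [map_mul, map_add, map_mul, map_mul, ← hy, ← hy']; ring),
    map_add, map_mul, map_mul, map_mul]
  field_simp

theorem gredFun_mul {x x' : LaurentSeries L} (h : IsGInt R x) (h' : IsGInt R x') :
    gredFun R (x * x') = gredFun R x * gredFun R x' := by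
  obtain ⟨s, y, hs, hy⟩ := h
  obtain ⟨s', y', hs', hy'⟩ := h'
  rw [gredFun_eq hs hy, gredFun_eq hs' hy',
    gredFun_eq (s := s * s') (y := y * y') (by rw [map_mul]; exact mul_ne_zero hs hs')
      (by rw [map_mul, map_mul, ← hy, ← hy']; ring),
    map_mul, map_mul]
  field_simp

variable (R L)

/-- The reduction map as a ring hom on the Gauss ring. -/
def gredHom : gaussQ R L →+* LaurentSeries (IsLocalRing.ResidueField R) where
  toFun x := gredFun R (x : LaurentSeries L)
  map_one' := by
    have := gredFun_emb (L := L) (1 : LaurentSeries R)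
    rw [map_one, map_one] at this
    exact this
  map_zero' := by
    have := gredFun_emb (L := L) (0 : LaurentSeries R)
    rw [map_zero, map_zero] at this
    exact this
  map_add' x y := gredFun_add x.2 y.2
  map_mul' x y := gredFun_mul x.2 y.2

variable {R L}

theorem embL_C_ne_zero {ϖ : R} (hϖ : Irreducible ϖ) :
    (HahnSeries.C (algebraMap R L ϖ) : LaurentSeries L) ≠ 0 := by
  exact (map_ne_zero_iff _ HahnSeries.C_injective).mpr
    ((map_ne_zero_iff _ (IsFractionRing.injective R L)).mpr hϖ.ne_zero)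

theorem gredFun_eq_zero_iff {ϖ : R} (hϖ : Irreducible ϖ) {x : LaurentSeries L} (hx : IsGInt R x) :
    gredFun R x = 0 ↔ IsGInt R (x / HahnSeries.C (algebraMap R L ϖ)) := by
  have hne := embL_C_ne_zero (L := L) hϖ
  constructor
  · intro h0
    obtain ⟨s, y, hs, hy⟩ := hx
    rw [gredFun_eq hs hy, div_eq_zero_iff, or_iff_left hs] at h0
    obtain ⟨y', rfl⟩ := exists_eq_C_mul hϖ h0
    refine ⟨s, y', hs, ?_⟩
    rw [map_mul, coeffMap_C] at hy
    rw [mul_div_assoc', hy, mul_div_assoc, mul_comm, div_mul_cancel₀ _ hne]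
  · intro h
    have h1 : x = embL R L (HahnSeries.C ϖ) * (x / HahnSeries.C (algebraMap R L ϖ)) := by
      rw [coeffMap_C, mul_div_cancel₀ _ hne]
    rw [h1, gredFun_mul (isGInt_emb _) h, gredFun_emb, redL_C_eq_zero hϖ, zero_mul]

theorem IsGInt.inv {x : LaurentSeries L} (hx : IsGInt R x) (h0 : gredFun R x ≠ 0) :
    IsGInt R x⁻¹ := by
  obtain ⟨s, y, hs, hy⟩ := hx
  rw [gredFun_eq hs hy] at h0
  have hy0 : redL R y ≠ 0 := fun h => h0 (by rw [h, zero_div])
  have hx0 : x ≠ 0 := by
    rintro rfl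
    rw [mul_zero] at hy
    have : y = 0 := embL_injective R L (by rw [← hy, map_zero])
    exact hy0 (by rw [this, map_zero])
  exact ⟨y, s, hy0, by rw [← hy, mul_assoc, mul_inv_cancel₀ hx0, mul_one]⟩

theorem gredFun_inv {x : LaurentSeries L} (hx : IsGInt R x) (h0 : gredFun R x ≠ 0) :
    gredFun R x⁻¹ = (gredFun R x)⁻¹ := by
  have hx0 : x ≠ 0 := by
    rintro rfl
    exact h0 (map_zero (gredHom R L))
  have h1 := gredFun_mul hx (hx.inv h0)
  rw [mul_inv_cancel₀ hx0] at h1
  have h2 : gredFun R (1 : LaurentSeries L) = 1 := map_one (gredHom R L)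
  rw [h2] at h1
  exact (eq_inv_of_mul_eq_one_right h1.symm)

/-- Fractions of integral series are Gauss-integral or have a Gauss-integral inverse. -/
theorem isGInt_or_inv {ϖ : R} (hϖ : Irreducible ϖ) {x : LaurentSeries L} {a b : LaurentSeries R}
    (hb : b ≠ 0) (h : embL R L b * x = embL R L a) : IsGInt R x ∨ IsGInt R x⁻¹ := by
  by_cases ha : a = 0
  · subst ha
    left
    rw [map_zero, mul_eq_zero] at h
    rcases h with h | h
    · exact absurd (embL_injective R L (by rw [h, map_zero])) hb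
    · rw [h]
      exact (gaussQ R L).zero_mem
  obtain ⟨m, a', rfl, ha'⟩ := exists_eq_C_pow_mul hϖ ha
  obtain ⟨n, b', rfl, hb'⟩ := exists_eq_C_pow_mul hϖ hb
  have hne := embL_C_ne_zero (L := L) hϖ
  rw [map_mul, map_mul, map_pow, map_pow, coeffMap_C] at h
  have hb0 : embL R L b' ≠ 0 := fun h0 => hb' (by
    rw [embL_injective R L (h0.trans (map_zero _).symm), map_zero])
  have ha0 : embL R L a' ≠ 0 := fun h0 => ha' (by
    rw [embL_injective R L (h0.trans (map_zero _).symm), map_zero])
  rcases le_total n m with hnm | hnm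
  · left
    obtain ⟨d, rfl⟩ := Nat.exists_eq_add_of_le hnm
    refine ⟨b', HahnSeries.C ϖ ^ d * a', hb', ?_⟩
    rw [map_mul, map_pow, coeffMap_C]
    apply mul_left_cancel₀ (pow_ne_zero n hne)
    rw [← mul_assoc, h, pow_add]
    ring
  · right
    obtain ⟨d, rfl⟩ := Nat.exists_eq_add_of_le hnm
    have hx0 : x ≠ 0 := by
      rintro rfl
      rw [mul_zero] at h
      exact mul_ne_zero (pow_ne_zero m hne) ha0 h.symm
    refine ⟨a', HahnSeries.C ϖ ^ d * b', ha', ?_⟩
    rw [map_mul, map_pow, coeffMap_C]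
    apply mul_left_cancel₀ (pow_ne_zero m hne)
    rw [← mul_assoc, ← h, pow_add]
    field_simp

end

end Fermat.Agent.GR.D.Vert
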