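import Fermat.Agent.GR.D.Vert.Model
import Fermat.Agent.GR.D.Vert.Gauss

/-!
# GR-D, vertical package: base change of the model to an arbitrary DVR `R` of residue
characteristic `ℓ ∤ N`.
-/

set_option autoImplicit false
set_option linter.unusedSectionVars false

namespace Fermat.Agent.GR.D.Vert

open ModularCurve Polynomial Fermat.Agent.S28

noncomputable section

section Repr

variable {R L : Type*} [CommRing R] [IsDomain R] [Field L] [Algebra R L] [IsFractionRing R L]

theorem algebraMap_laurent_tower (r : R) :
    algebraMap R (LaurentSeries L) r = algebraMap L (LaurentSeries L) (algebraMap R L r) := by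
  rw [algebraMap_laurent_eq_single, algebraMap_laurent_eq_single]
  rfl

theorem evP_eq_evP_map (j : LaurentSeries L) (p : R[X]) :
    evP R j p = evP L j (p.map (algebraMap R L)) :=
  map_evP (algebraMap R L) (RingHom.id (LaurentSeries L))
    (fun a => algebraMap_laurent_tower a) j p

theorem evP_injective_of_pole' (j : LaurentSeries L) (hj : j.order < 0) :
    Function.Injective (evP R j) := by
  intro p q hpq
  rw [evP_eq_evP_map j p, evP_eq_evP_map j q] at hpq
  exact Polynomial.map_injective _ (IsFractionRing.injective R L)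
    (evP_injective_of_pole j hj hpq)

/-- Elements of `L(S)` are `R[j]`-fractions of `R[j]`-combinations of `1, V, …, V^{n-1}`. -/
theorem exists_repr_of_mem_adjoin' (j V : LaurentSeries L)
    (hj : Function.Injective (evP R j))
    (W₀ : L[X][X]) (hW₀ : W₀.Monic) (hroot : W₀.eval₂ (evP L j) V = 0)
    (n : ℕ) (hn : n = W₀.natDegree)
    (S : Set (LaurentSeries L))
    (hS : ∀ s ∈ S, ∃ G P : L[X][X], P.eval₂ (evP L j) V ≠ 0 ∧
      G.eval₂ (evP L j) V = s * P.eval₂ (evP L j) V)
    (y : LaurentSeries L) (hy : y ∈ IntermediateField.adjoin L S) :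
    ∃ (w : R[X]) (u : Fin n → R[X]), w ≠ 0 ∧
      evP R j w * y = ∑ i, evP R j (u i) * V ^ (i : ℕ) := by
  let K := FractionRing R[X]
  let ψ : K →+* LaurentSeries L := IsFractionRing.lift hj
  have hψ : ∀ p : R[X], ψ (algebraMap R[X] K p) = evP R j p :=
    fun p => IsFractionRing.lift_algebraMap hj p
  have hinj0 : Function.Injective ((algebraMap R[X] K).comp (C : R →+* R[X])) :=
    (IsFractionRing.injective R[X] K).comp Polynomial.C_injective
  let θ₀ : L →+* K := IsFractionRing.lift hinj0
  have hθ₀ : ∀ r : R, θ₀ (algebraMap R L r) = algebraMap R[X] K (C r) :=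
    fun r => IsFractionRing.lift_algebraMap hinj0 r
  let θ : L[X] →+* K := Polynomial.eval₂RingHom θ₀ (algebraMap R[X] K X)
  have hθ : ψ.comp θ = evP L j := by
    refine Polynomial.ringHom_ext' ?_ ?_
    · refine IsLocalization.ringHom_ext (nonZeroDivisors R) (RingHom.ext fun r => ?_)
      show ψ (θ (C (algebraMap R L r))) = evP L j (C (algebraMap R L r))
      have h1 : θ (C (algebraMap R L r)) = algebraMap R[X] K (C r) := by
        simp [θ, hθ₀]
      rw [h1, hψ]
      simp [evP, algebraMap_laurent_tower]
    · show ψ (θ X) = evP L j X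
      have h1 : θ X = algebraMap R[X] K X := by simp [θ]
      rw [h1, hψ]
      simp [evP]
  let _ : Algebra K (LaurentSeries L) := ψ.toAlgebra
  have haeval : ∀ P : L[X][X], aeval V (P.map θ) = P.eval₂ (evP L j) V := by
    intro P
    rw [aeval_def, eval₂_map]
    show eval₂ (ψ.comp θ) V P = _
    rw [hθ]
  have hint : IsIntegral K V := ⟨W₀.map θ, hW₀.map θ, by
    have := haeval W₀
    rw [aeval_def] at this
    rw [this, hroot]⟩
  have hA : ∀ P : L[X][X], P.eval₂ (evP L j) V ∈ IntermediateField.adjoin K {V} := by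
    intro P
    rw [← haeval]
    exact IntermediateField.algebra_adjoin_le_adjoin K {V}
      (Polynomial.aeval_mem_adjoin_singleton K V)
  have hC : y ∈ IntermediateField.adjoin K {V} := by
    have hle : Subfield.closure (Set.range (algebraMap L (LaurentSeries L)) ∪ S)
        ≤ (IntermediateField.adjoin K {V}).toSubfield := by
      rw [Subfield.closure_le]
      rintro s (⟨r, rfl⟩ | hs)
      · have h := hA (C (C r))
        rw [eval₂_C] at h
        have h2 : evP L j (C r) = algebraMap L (LaurentSeries L) r := by simp [evP]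
        rw [h2] at h
        exact h
      · obtain ⟨G, P, hP, hG⟩ := hS s hs
        have : s = G.eval₂ (evP L j) V * (P.eval₂ (evP L j) V)⁻¹ := by
          rw [hG, mul_assoc, mul_inv_cancel₀ hP, mul_one]
        show s ∈ IntermediateField.adjoin K {V}
        rw [this]
        exact mul_mem (hA G) (inv_mem (hA P))
    exact hle hy
  have hD : y ∈ (IntermediateField.adjoin K {V}).toSubalgebra := hC
  rw [IntermediateField.adjoin_simple_toSubalgebra_of_isAlgebraic hint.isAlgebraic,
    Algebra.adjoin_singleton_eq_range_aeval] at hD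
  obtain ⟨p, hp⟩ := hD
  have hp : aeval V p = y := hp
  have hWK : (W₀.map θ).Monic := hW₀.map θ
  have hrootK : aeval V (W₀.map θ) = 0 := by rw [haeval, hroot]
  have hne1 : W₀.map θ ≠ 1 := by
    intro h
    rw [h, map_one] at hrootK
    exact one_ne_zero hrootK
  have hdeg : (p %ₘ W₀.map θ).natDegree < n := by
    have := natDegree_modByMonic_lt p hWK hne1
    rwa [hW₀.natDegree_map, ← hn] at this
  have hy' : y = ∑ i : Fin n, ψ ((p %ₘ W₀.map θ).coeff i) * V ^ (i : ℕ) := by
    rw [← hp, ← Polynomial.aeval_modByMonic_eq_self_of_root hrootK,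
      Polynomial.aeval_eq_sum_range' hdeg, Finset.sum_range]
    refine Finset.sum_congr rfl fun i _ => ?_
    rw [Algebra.smul_def]
    rfl
  obtain ⟨⟨w, hw⟩, hwu⟩ := IsLocalization.exist_integer_multiples (nonZeroDivisors R[X])
    (Finset.univ : Finset (Fin n)) (fun i => (p %ₘ W₀.map θ).coeff i)
  choose u hu using fun i => hwu i (Finset.mem_univ i)
  refine ⟨w, u, nonZeroDivisors.ne_zero hw, ?_⟩
  rw [hy', Finset.mul_sum]
  refine Finset.sum_congr rfl fun i _ => ?_
  rw [← hψ, ← hψ, hu i, ← mul_assoc, ← map_mul]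
  congr 2
  exact (Algebra.smul_def w _).symm

end Repr

section Indep

variable {k₀ k : Type*} [Field k₀] [Field k] [Algebra k₀ k]

theorem map_lin_single_mul (φ : k →ₗ[k₀] k₀) (c : k) (z : LaurentSeries k₀) :
    (HahnSeries.single 0 c * coeffMap (algebraMap k₀ k) z).map φ
      = HahnSeries.single 0 (φ c) * z := by
  ext m
  rw [HahnSeries.map_coeff, HahnSeries.coeff_single_zero_mul, HahnSeries.coeff_single_zero_mul,
    coeffMap_coeff, mul_comm c, ← Algebra.smul_def, map_smul, smul_eq_mul, mul_comm]

theorem map_lin_add (φ : k →ₗ[k₀] k₀) (x y : LaurentSeries k) :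
    (x + y).map φ = x.map φ + y.map φ := by
  ext m
  simp

theorem map_lin_evP_mul (φ : k →ₗ[k₀] k₀) (x z : LaurentSeries k₀) (p : k[X]) :
    (evP k (coeffMap (algebraMap k₀ k) x) p * coeffMap (algebraMap k₀ k) z).map φ
      = evP k₀ x (mapAdd φ.toAddMonoidHom p) * z := by
  induction p using Polynomial.induction_on' with
  | add p q hp hq => rw [map_add, add_mul, map_lin_add, hp, hq, map_add, map_add, add_mul]
  | monomial a c =>
    have h1 : evP k (coeffMap (algebraMap k₀ k) x) (monomial a c)
        = HahnSeries.single 0 c * coeffMap (algebraMap k₀ k) (x ^ a) := by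
      rw [evP_monomial, map_pow]
      rfl
    have h2 : evP k₀ x (monomial a (φ c)) = HahnSeries.single 0 (φ c) * x ^ a := by
      rw [evP_monomial]
      rfl
    rw [h1, mapAdd_monomial]
    show _ = evP k₀ x (monomial a (φ c)) * z
    rw [h2, mul_assoc, ← map_mul, map_lin_single_mul, mul_assoc]

theorem map_lin_sum (φ : k →ₗ[k₀] k₀) {ι : Type*} (s : Finset ι) (f : ι → LaurentSeries k) :
    (∑ i ∈ s, f i).map φ = ∑ i ∈ s, (f i).map φ := by
  classical
  induction s using Finset.induction_on with
  | empty =>
    ext m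
    simp
  | insert a s ha ih => rw [Finset.sum_insert ha, Finset.sum_insert ha, map_lin_add, ih]

/-- Independence over `k₀[x]` is preserved by extension of the field of constants. -/
theorem indep_baseChange {n : ℕ} (x : LaurentSeries k₀) (z : Fin n → LaurentSeries k₀)
    (h : ∀ u : Fin n → k₀[X], ∑ i, evP k₀ x (u i) * z i = 0 → u = 0)
    (u : Fin n → k[X])
    (hu : ∑ i, evP k (coeffMap (algebraMap k₀ k) x) (u i) * coeffMap (algebraMap k₀ k) (z i) = 0) :
    u = 0 := by
  funext i
  ext a
  rw [Pi.zero_apply, coeff_zero, ← Module.forall_dual_apply_eq_zero_iff k₀]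
  intro φ
  have h1 := congrArg (fun s : LaurentSeries k => s.map φ) hu
  simp only [map_lin_sum, map_lin_evP_mul] at h1
  have h2 : ((0 : LaurentSeries k).map φ) = 0 := by
    ext m
    simp
  rw [h2] at h1
  have h3 := congrFun (h (fun i => mapAdd φ.toAddMonoidHom (u i)) h1) i
  have h4 := congrArg (fun p : k₀[X] => p.coeff a) h3
  simpa [coeff_mapAdd] using h4

end Indep

end

end Fermat.Agent.GR.D.Vert
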