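import Fermat.Agent.GR.D.Vert.Base

/-!
# GR-D, vertical package: the data `(V, W)` over a DVR `R` of residue characteristic `ℓ ∤ N`.
-/

set_option autoImplicit false
set_option linter.unusedSectionVars false

namespace Fermat.Agent.GR.D.Vert

open ModularCurve Polynomial Fermat.Agent.S28

noncomputable section

variable (R : Type*) [CommRing R] [IsDomain R] [IsDiscreteValuationRing R]
variable (L : Type*) [Field L] [Algebra R L] [IsFractionRing R L]

/-- The vertical data: an integral series `V`, root of a monic `W ∈ R[j][Y]`, generating (at least)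
the function field over `L(j)`, whose powers stay independent mod `ϖ` and which is a simple root of
`W` mod `ϖ`. -/
structure VData (N : ℕ) where
  V : LaurentSeries R
  W : R[X][X]
  n : ℕ
  hn : n = W.natDegree
  monic : W.Monic
  root : W.eval₂ (evP R (jqModC R)) V = 0
  span : ∀ y ∈ modularFunctionFieldFullC L N, ∃ (w : R[X]) (u : Fin n → R[X]), w ≠ 0 ∧
    evP R (jqModC L) w * y = ∑ i, evP R (jqModC L) (u i) * embL R L V ^ (i : ℕ)
  indep : ∀ u : Fin n → (IsLocalRing.ResidueField R)[X],
    ∑ i, evP (IsLocalRing.ResidueField R) (jqModC (IsLocalRing.ResidueField R)) (u i) *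
      redL R V ^ (i : ℕ) = 0 → u = 0
  simple : redL R ((derivative W).eval₂ (evP R (jqModC R)) V) ≠ 0

variable {R L}

theorem ratCast_mem_range (ℓ : ℕ) [Fact ℓ.Prime] [CharP (IsLocalRing.ResidueField R) ℓ]
    [CharZero L] (x : Rl ℓ) :
    ((algebraMap ℚ L).comp (GaloisRep.ratLocalizedAt ℓ).subtype) x ∈ (algebraMap R L).range := by
  have hcop : (x : ℚ).den.Coprime ℓ := x.2
  have hunit : IsUnit (((x : ℚ).den : ℕ) : R) := by
    rw [← IsLocalRing.residue_ne_zero_iff_isUnit, map_natCast, Ne,
      CharP.cast_eq_zero_iff (IsLocalRing.ResidueField R) ℓ]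
    intro hdvd
    exact ((Nat.Prime.coprime_iff_not_dvd Fact.out).mp hcop.symm) hdvd
  obtain ⟨u, hu⟩ := hunit
  refine ⟨((x : ℚ).num : R) * ((u⁻¹ : Rˣ) : R), ?_⟩
  have hd0 : (((x : ℚ).den : ℕ) : L) ≠ 0 := Nat.cast_ne_zero.mpr (x : ℚ).den_nz
  have h1 : algebraMap R L ((u⁻¹ : Rˣ) : R) = (((x : ℚ).den : ℕ) : L)⁻¹ := by
    apply eq_inv_of_mul_eq_one_left
    rw [← map_natCast (algebraMap R L), ← hu, ← map_mul, Units.inv_mul, map_one]
  show _ = algebraMap ℚ L (x : ℚ)
  rw [map_mul, h1, map_intCast, eq_ratCast, Rat.cast_def, div_eq_mul_inv]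

theorem nonempty_vdata (N : ℕ) [NeZero N] (ℓ : ℕ) [Fact ℓ.Prime] (hℓN : ¬ ℓ ∣ N)
    [CharP (IsLocalRing.ResidueField R) ℓ] [CharZero L] : Nonempty (VData R L N) := by
  obtain ⟨V, W₁, hm, hroot, hG, hind, hsimp⟩ := exists_model N ℓ hℓN
  let sQ : Rl ℓ →+* ℚ := (GaloisRep.ratLocalizedAt ℓ).subtype
  have hinj : Function.Injective (algebraMap R L) := IsFractionRing.injective R L
  let g : Rl ℓ →+* R := liftOfRange (algebraMap R L) hinj ((algebraMap ℚ L).comp sQ)
    (ratCast_mem_range ℓ)
  have hg : (algebraMap R L).comp g = (algebraMap ℚ L).comp sQ :=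
    RingHom.ext fun x => apply_liftOfRange (algebraMap R L) hinj _ _ x
  let _ : Algebra (ZMod ℓ) (IsLocalRing.ResidueField R) := ZMod.algebra _ ℓ
  have hres : (IsLocalRing.residue R).comp g
      = (algebraMap (ZMod ℓ) (IsLocalRing.ResidueField R)).comp (resid ℓ) := ringHom_Rl_ext' ℓ _ _
  set VR : LaurentSeries R := coeffMap (Int.castRingHom R) V with hVR
  set W : R[X][X] := W₁.map (Polynomial.mapRingHom g) with hW
  have hrootR : W.eval₂ (evP R (jqModC R)) VR = 0 := by
    have h := congrArg (coeffMap g) hroot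
    rw [map_eval₂_evP g (coeffMap g) (coeffMap_algebraMap' g g fun _ => rfl),
      S28.coeffMap_jqModC, coeffMap_coeffMap,
      coeffMap_congr (RingHom.ext_int _ (Int.castRingHom R)), map_zero] at h
    exact h
  have hredV : redL R VR = coeffMap (algebraMap (ZMod ℓ) (IsLocalRing.ResidueField R))
      (coeffMap (Int.castRingHom (ZMod ℓ)) V) := by
    rw [hVR, coeffMap_coeffMap, coeffMap_coeffMap]
    exact coeffMap_congr (RingHom.ext_int _ _) _
  have hsimple : redL R ((derivative W).eval₂ (evP R (jqModC R)) VR) ≠ 0 := by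
    rw [map_eval₂_evP (IsLocalRing.residue R) (redL R)
      (coeffMap_algebraMap' (IsLocalRing.residue R) (IsLocalRing.residue R) fun _ => rfl),
      S28.coeffMap_jqModC, hW, Polynomial.derivative_map, map_mapRingHom_comp, hres,
      ← map_mapRingHom_comp, hredV]
    intro h0
    apply hsimp
    apply coeffMap_injective (algebraMap (ZMod ℓ) (IsLocalRing.ResidueField R))
      (algebraMap (ZMod ℓ) (IsLocalRing.ResidueField R)).injective
    rw [map_eval₂_evP (algebraMap (ZMod ℓ) (IsLocalRing.ResidueField R))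
      (coeffMap (algebraMap (ZMod ℓ) (IsLocalRing.ResidueField R)))
      (coeffMap_algebraMap' _ _ fun _ => rfl), S28.coeffMap_jqModC, map_zero,
      Polynomial.derivative_map]
    exact h0
  have hembV : embL R L VR = coeffMap (algebraMap ℚ L) (coeffMap (Int.castRingHom ℚ) V) := by
    rw [hVR, coeffMap_coeffMap, coeffMap_coeffMap]
    exact coeffMap_congr (RingHom.ext_int _ _) _
  have hWL : W.map (Polynomial.mapRingHom (algebraMap R L))
      = (W₁.map (Polynomial.mapRingHom sQ)).map (Polynomial.mapRingHom (algebraMap ℚ L)) := by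
    rw [hW, map_mapRingHom_comp, map_mapRingHom_comp, hg]
  have hemb : ∀ P : R[X][X], embL R L (P.eval₂ (evP R (jqModC R)) VR)
      = (P.map (Polynomial.mapRingHom (algebraMap R L))).eval₂ (evP L (jqModC L)) (embL R L VR) := by
    intro P
    rw [map_eval₂_evP (algebraMap R L) (embL R L)
      (coeffMap_algebraMap' (algebraMap R L) (algebraMap R L) fun _ => rfl), S28.coeffMap_jqModC]
  refine ⟨{
    V := VR
    W := W
    n := W₁.natDegree
    hn := (hm.natDegree_map _).symm
    monic := hm.map _
    root := hrootR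
    span := ?_
    indep := ?_
    simple := hsimple }⟩
  · intro y hy
    refine exists_repr_of_mem_adjoin' (R := R) (jqModC L) (embL R L VR)
      (evP_injective_of_pole' _ (order_jqModC_neg L))
      (W.map (Polynomial.mapRingHom (algebraMap R L))) ((hm.map _).map _) ?_ _ ?_
      (divisorExpansionsC L N) ?_ y hy
    · rw [← hemb, hrootR, map_zero]
    · rw [(hm.map _).natDegree_map, hm.natDegree_map]
    · rintro s ⟨d, hd0, hd, rfl⟩
      obtain ⟨G₀, hG₀⟩ := hG d hd
      refine ⟨G₀.map (Polynomial.mapRingHom (algebraMap ℚ L)),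
        derivative (W.map (Polynomial.mapRingHom (algebraMap R L))), ?_, ?_⟩
      · rw [Polynomial.derivative_map, ← hemb]
        intro h0
        apply hsimple
        rw [embL_injective R L (h0.trans (map_zero _).symm), map_zero]
      · have h := congrArg (coeffMap (algebraMap ℚ L)) hG₀
        rw [map_mul, map_eval₂_evP (algebraMap ℚ L) (coeffMap (algebraMap ℚ L))
          (coeffMap_algebraMap' (algebraMap ℚ L) (algebraMap ℚ L) fun _ => rfl),
          map_eval₂_evP (algebraMap ℚ L) (coeffMap (algebraMap ℚ L))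
          (coeffMap_algebraMap' (algebraMap ℚ L) (algebraMap ℚ L) fun _ => rfl),
          coeffMap_qExpand, ← jqModC_rat, S28.coeffMap_jqModC, ← hembV,
          ← Polynomial.derivative_map, ← hWL] at h
        exact h
  · intro u hu
    refine indep_baseChange (k₀ := ZMod ℓ) (jqModC (ZMod ℓ))
      (fun i => coeffMap (Int.castRingHom (ZMod ℓ)) V ^ (i : ℕ)) hind u ?_
    rw [S28.coeffMap_jqModC, ← hu]
    refine Finset.sum_congr rfl fun i _ => ?_
    rw [map_pow, hredV]

end

end Fermat.Agent.GR.D.Vert
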