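import Fermat.Agent.GR.D.Vert.Chart
import Fermat.Agent.GR.D.Vert.DualAbs
import Fermat.Agent.GR.D.Defs

/-!
# GR-D, vertical package: the Gauss ring of `FF L N` is self-dual for the trace form over `L(t)`.
-/

set_option autoImplicit false
set_option linter.unusedSectionVars false
set_option synthInstance.maxHeartbeats 400000

namespace Fermat.Agent.GR.D.Vert

open ModularCurve Polynomial IntermediateField Fermat.Agent.S28 Fermat.Agent.GR

noncomputable section

variable {L : Type*} [Field L] {R : ValuationSubring L} [IsDiscreteValuationRing R] {N : ℕ}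

/-- `x` is a fraction of two integral series. -/
def IsFracInt (R : ValuationSubring L) (x : LaurentSeries L) : Prop :=
  ∃ a b : LaurentSeries R, b ≠ 0 ∧ embL R L b * x = embL R L a

theorem IsFracInt.add {x y : LaurentSeries L} (hx : IsFracInt R x) (hy : IsFracInt R y) :
    IsFracInt R (x + y) := by
  obtain ⟨a, b, hb, h⟩ := hx
  obtain ⟨a', b', hb', h'⟩ := hy
  refine ⟨a * b' + a' * b, b * b', mul_ne_zero hb hb', ?_⟩
  rw [map_mul, map_add, map_mul, map_mul, ← h, ← h']
  ring

theorem IsFracInt.mul {x y : LaurentSeries L} (hx : IsFracInt R x) (hy : IsFracInt R y) :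
    IsFracInt R (x * y) := by
  obtain ⟨a, b, hb, h⟩ := hx
  obtain ⟨a', b', hb', h'⟩ := hy
  refine ⟨a * a', b * b', mul_ne_zero hb hb', ?_⟩
  rw [map_mul, map_mul, ← h, ← h']
  ring

theorem IsFracInt.inv {x : LaurentSeries L} (hx : IsFracInt R x) : IsFracInt R x⁻¹ := by
  obtain ⟨a, b, hb, h⟩ := hx
  by_cases hx0 : x = 0
  · exact ⟨0, 1, one_ne_zero, by rw [hx0, inv_zero, mul_zero, map_zero]⟩
  · refine ⟨b, a, ?_, ?_⟩
    · rintro rfl
      rw [map_zero] at h
      rcases mul_eq_zero.mp h with h | h
      · exact hb (embL_injective R L (h.trans (map_zero _).symm))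
      · exact hx0 h
    · rw [← h, mul_assoc, mul_inv_cancel₀ hx0, mul_one]

theorem isFracInt_of_isGInt {x : LaurentSeries L} (hx : IsGInt R x) : IsFracInt R x := by
  obtain ⟨s, y, hs, h⟩ := hx
  exact ⟨y, s, fun h0 => hs (by rw [h0, map_zero]), h⟩

theorem isFracInt_coe (x : FF L N) : IsFracInt R (x : LaurentSeries L) := by
  rcases isGInt_or_inv_FF R N x with h | h
  · exact isFracInt_of_isGInt h
  · have := (isFracInt_of_isGInt h).inv
    rwa [IntermediateField.coe_inv, inv_inv] at this

theorem isFracInt_of_mem_adjoin (V : LaurentSeries R) {x : LaurentSeries L}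
    (hx : x ∈ (FF L N)⟮embL R L V⟯) : IsFracInt R x := by
  induction hx using IntermediateField.adjoin_induction with
  | mem y hy =>
    rw [Set.mem_singleton_iff] at hy
    rw [hy]
    exact isFracInt_of_isGInt (isGInt_emb V)
  | algebraMap r => exact isFracInt_coe r
  | add y z _ _ hy hz => exact hy.add hz
  | inv y _ hy => exact hy.inv
  | mul y z _ _ hy hz => exact hy.mul hz

theorem traceSelfDual_aux [CharZero L] (D : VData R L N) (K : IntermediateField L (FF L N))
    (hj : jFF N ∈ K) (x : FF L N)
    (hx : ∀ c : FF L N, IsGInt R (c : LaurentSeries L) →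
      IsGInt R (((Algebra.trace K (FF L N) (x * c) : K) : FF L N) : LaurentSeries L)) :
    IsGInt R (x : LaurentSeries L) := by
  obtain ⟨ϖ, hϖ⟩ := IsDiscreteValuationRing.exists_irreducible R
  let φ : R[X] →+* K := eval₂RingHom ((algebraMap L K).comp (algebraMap R L)) ⟨jFF N, hj⟩
  have hφ : (algebraMap K (LaurentSeries L)).comp φ = evP R (jqModC L) := by
    apply Polynomial.ringHom_ext
    · intro a
      simp only [φ, RingHom.comp_apply, coe_eval₂RingHom, eval₂_C]
      show _ = aeval (jqModC L) (C a)
      rw [aeval_C, algebraMap_laurent_tower]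
      rfl
    · simp only [φ, RingHom.comp_apply, coe_eval₂RingHom, eval₂_X]
      show _ = aeval (jqModC L) X
      rw [aeval_X]
      rfl
  have hφ' : ∀ p : R[X], algebraMap K (LaurentSeries L) (φ p) = evP R (jqModC L) p := fun p =>
    RingHom.congr_fun hφ p
  have haev : ∀ Q : R[X][X], aeval (embL R L D.V) (Q.map φ) =
      Q.eval₂ (evP R (jqModC L)) (embL R L D.V) := by
    intro Q
    rw [aeval_def, eval₂_map, hφ]
  have : CharZero K := charZero_of_injective_algebraMap (algebraMap L K).injective
  have hδ : aeval (embL R L D.V) (derivative (D.W.map φ)) =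
      embL R L ((derivative D.W).eval₂ (evP R (jqModC R)) D.V) := by
    rw [derivative_map, haev, embL_eval₂]
  refine mem_of_trace_mem_subring (K := K) (F := FF L N) (S := LaurentSeries L) (embL R L D.V)
    (gaussQ R L) ?_ (D.W.map φ) (D.monic.map φ) ?_ ?_ ?_ ?_ ?_ x hx
  · intro y hy
    obtain ⟨a, b, hb, h⟩ := isFracInt_of_mem_adjoin D.V hy
    exact isGInt_or_inv hϖ hb h
  · intro i
    rw [coeff_map, hφ']
    exact isGInt_evP isGInt_j _
  · rw [haev]
    exact D.root_L
  · rw [hδ]
    intro h0
    apply D.simple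
    rw [embL_injective R L (h0.trans (map_zero _).symm), map_zero]
  · rw [hδ]
    exact IsGInt.inv (isGInt_emb _) (by rw [gredFun_emb]; exact D.simple)
  · intro y
    obtain ⟨w, u, hw, h⟩ := D.span _ y.2
    have hw0 : evP R (jqModC L) w ≠ 0 := by
      intro h0
      exact hw (evP_injective_of_pole' (R := R) _ (order_jqModC_neg L) (h0.trans (map_zero _).symm))
    have hy : algebraMap (FF L N) (LaurentSeries L) y =
        algebraMap K (LaurentSeries L) (φ w)⁻¹ *
          ∑ i, algebraMap K (LaurentSeries L) (φ (u i)) * embL R L D.V ^ (i : ℕ) := by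
      simp only [map_inv₀, hφ']
      rw [← h, ← mul_assoc, inv_mul_cancel₀ hw0, one_mul]
      rfl
    rw [hy]
    refine mul_mem (Subalgebra.algebraMap_mem _ _) (sum_mem fun i _ => ?_)
    exact mul_mem (Subalgebra.algebraMap_mem _ _)
      (pow_mem (Algebra.self_mem_adjoin_singleton K _) _)

/-- **Self-duality of the Gauss ring** over `L(t)`. -/
theorem traceSelfDual [CharZero L] (D : VData R L N) {t : FF L N} (ht : IsParam R N t) :
    TraceSelfDual L⟮t⟯ (gaussO R N) := by
  intro x hx
  exact traceSelfDual_aux D L⟮t⟯ ht.j_mem x (fun c hc => hx c hc)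

end

end Fermat.Agent.GR.D.Vert
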