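import Fermat.Agent.GR.D.Vert.Main
import Fermat.Agent.GR.E.Model

/-!
# GR-D, vertical package: admissible parameters and the export towards `E.ModelData`
-/

set_option autoImplicit false
set_option linter.unusedSectionVars false
set_option linter.style.haveILetI false
set_option synthInstance.maxHeartbeats 400000

namespace Fermat.Agent.GR.D.Vert

open ModularCurve Polynomial Fermat.Agent.S28 Fermat.Agent.GR IntermediateField

noncomputable section

variable {L : Type*} [Field L] {R : ValuationSubring L} [IsDiscreteValuationRing R] {N : ℕ}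

local notation "𝕜" => IsLocalRing.ResidueField R

theorem baseFn_eq_embL (H : LaurentSeries ℤ) :
    E.baseFn L H = embL R L (coeffMap (Int.castRingHom R) H) := by
  rw [E.baseFn, coeffMap_coeffMap]
  exact coeffMap_congr (RingHom.ext_int _ _) _

theorem gredFun_baseFn (H : LaurentSeries ℤ) : gredFun R (E.baseFn L H) = E.baseFn 𝕜 H := by
  rw [baseFn_eq_embL (R := R), gredFun_emb, E.baseFn, coeffMap_coeffMap]
  exact coeffMap_congr (RingHom.ext_int _ _) _

/-- integral series with transcendental reduction are admissible parameters. -/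
theorem isParam_baseFn (H : LaurentSeries ℤ) (hmem : E.baseFn L H ∈ FF L N)
    (htr : Transcendental 𝕜 (E.baseFn 𝕜 H))
    (hj : jFF N ∈ L⟮(⟨E.baseFn L H, hmem⟩ : FF L N)⟯) :
    IsParam R N ⟨E.baseFn L H, hmem⟩ where
  mem := by
    rw [mem_gaussO]
    show IsGInt R (E.baseFn L H)
    rw [baseFn_eq_embL (R := R)]
    exact isGInt_emb _
  transc := by
    show Function.Injective (evP 𝕜 (gredFun R (E.baseFn L H)))
    rw [gredFun_baseFn]
    exact transcendental_iff_injective.mp htr
  j_mem := hj

theorem isParam_j : IsParam R N (jFF N) where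
  mem := isGInt_j
  transc := injective_evP_gredFun_j
  j_mem := mem_adjoin_simple_self L _

theorem IsParam.gredFun_ne_zero {t : FF L N} (ht : IsParam R N t) :
    gredFun R (t : LaurentSeries L) ≠ 0 := by
  intro h0
  have h1 : evP 𝕜 (gredFun R (t : LaurentSeries L)) X = 0 := by
    show aeval _ X = 0
    rw [aeval_X, h0]
  exact X_ne_zero (ht.transc (h1.trans (map_zero _).symm))

theorem IsParam.ne_zero {t : FF L N} (ht : IsParam R N t) : t ≠ 0 := by
  rintro rfl
  exact ht.gredFun_ne_zero gredFun_zero

theorem IsParam.inv_mem {t : FF L N} (ht : IsParam R N t) : t⁻¹ ∈ gaussO R N := by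
  rw [mem_gaussO, IntermediateField.coe_inv]
  exact IsGInt.inv ht.mem ht.gredFun_ne_zero

theorem IsParam.inv {t : FF L N} (ht : IsParam R N t) : IsParam R N t⁻¹ where
  mem := ht.inv_mem
  transc := by
    rw [IntermediateField.coe_inv, gredFun_inv ht.mem ht.gredFun_ne_zero]
    have h1 : Transcendental 𝕜 (gredFun R (t : LaurentSeries L)) :=
      transcendental_iff_injective.mpr ht.transc
    have h2 : Transcendental 𝕜 (gredFun R (t : LaurentSeries L))⁻¹ :=
      fun h => h1 (IsAlgebraic.inv_iff.mp h)
    exact transcendental_iff_injective.mp h2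
  j_mem := by
    have hle : L⟮t⟯ ≤ L⟮t⁻¹⟯ := by
      rw [adjoin_simple_le_iff]
      have := L⟮t⁻¹⟯.inv_mem (mem_adjoin_simple_self L t⁻¹)
      rwa [inv_inv] at this
    exact hle ht.j_mem

theorem IsParam.transcendentalR {t : FF L N} (ht : IsParam R N t) : Transcendental R t := by
  rw [transcendental_iff_injective]
  intro p q hpq
  apply evP_injective_of_red ht.mem ht.transc
  rw [← coe_aeval, ← coe_aeval, hpq]

variable [CharZero L]

/-- Everything in `E.GoodChart` except the Dedekind property. -/
theorem goodChart_of_dedekind (D : VData R L N) {t : FF L N} (ht : IsParam R N t) {ϖ : R}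
    (hϖ : Irreducible ϖ)
    (hded : IsDedekindDomain (E.chart R ({t} : Set (FF L N)) ⧸
      Ideal.span {algebraMap R (E.chart R ({t} : Set (FF L N))) ϖ})) :
    E.GoodChart ϖ (gaussO R N) (E.chart R ({t} : Set (FF L N))) where
  toSatChart := satChart D ht hϖ
  frac := frac D ht hϖ
  noeth := main_noeth D ht
  dedekind := hded

/-- The export towards GR-E: only the two Dedekind properties are missing. -/
theorem modelData_of_dedekind (D : VData R L N) {h : FF L N} (ht : IsParam R N h)
    (hded0 : ∀ ϖ : R, Irreducible ϖ → IsDedekindDomain (E.chart R ({h} : Set (FF L N)) ⧸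
      Ideal.span {algebraMap R (E.chart R ({h} : Set (FF L N))) ϖ}))
    (hded1 : ∀ ϖ : R, Irreducible ϖ → IsDedekindDomain (E.chart R ({h⁻¹} : Set (FF L N)) ⧸
      Ideal.span {algebraMap R (E.chart R ({h⁻¹} : Set (FF L N))) ϖ})) :
    E.ModelData R N h (gaussO R N) where
  spec := gaussO_spec R N
  gauss _ hϖ := gaussRing R N hϖ
  ne_zero := ht.ne_zero
  mem := ht.mem
  inv_mem := ht.inv_mem
  transc := ht.transcendentalR
  finite := main_finite D ht
  good0 ϖ hϖ := goodChart_of_dedekind D ht hϖ (hded0 ϖ hϖ)
  good1 ϖ hϖ := goodChart_of_dedekind D ht.inv hϖ (hded1 ϖ hϖ)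

end

end Fermat.Agent.GR.D.Vert
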