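import Fermat.Agent.GR.D.Vert.Integral
import Fermat.Agent.GR.E.M1
import Fermat.Agent.GR.E.E0

/-!
# GR-D, vertical package: the Gauss valuation subring of `FF L N`

Conventions of `GR/E/Model.lean`: `R : ValuationSubring L` a DVR.
-/

set_option autoImplicit false
set_option linter.unusedSectionVars false
set_option synthInstance.maxHeartbeats 400000

namespace Fermat.Agent.GR.D.Vert

open ModularCurve Polynomial Fermat.Agent.S28 Fermat.Agent.GR

noncomputable section

variable {L : Type*} [Field L] (R : ValuationSubring L) [IsDiscreteValuationRing R] (N : ℕ)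

local notation "𝕜" => IsLocalRing.ResidueField R

theorem coe_algebraMap (r : R) :
    ((algebraMap R (FF L N) r : FF L N) : LaurentSeries L) = algebraMap R (LaurentSeries L) r := by
  rw [algebraMap_laurent_tower]
  rfl

theorem coe_algebraMap_C (r : R) :
    ((algebraMap R (FF L N) r : FF L N) : LaurentSeries L) = HahnSeries.C (algebraMap R L r) := by
  rw [coe_algebraMap, algebraMap_laurent_eq_single]
  rfl

/-- the inclusion `FF L N → L((q))` as a ring hom. -/
abbrev valF : FF L N →+* LaurentSeries L := (FF L N).val.toRingHom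

theorem valF_comp_evP (t : FF L N) :
    (valF N).comp (evP R t) = evP R (t : LaurentSeries L) := by
  have h := evP_comp (RingHom.id R) (valF (L := L) N) (fun a => coe_algebraMap R N a) t
  rw [h, mapRingHom_id', RingHom.comp_id]
  rfl

theorem coe_evP (t : FF L N) (p : R[X]) :
    ((evP R t p : FF L N) : LaurentSeries L) = evP R (t : LaurentSeries L) p :=
  congrArg (fun f : R[X] →+* LaurentSeries L => f p) (valF_comp_evP R N t)

theorem coe_aeval (t : FF L N) (p : R[X]) :
    ((aeval t p : FF L N) : LaurentSeries L) = evP R (t : LaurentSeries L) p :=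
  coe_evP R N t p

theorem isIntegralElem_coe_iff (t x : FF L N) :
    (evP R (t : LaurentSeries L)).IsIntegralElem (x : LaurentSeries L) ↔
      (evP R t).IsIntegralElem x := by
  constructor
  · rintro ⟨p, hp, h⟩
    refine ⟨p, hp, ?_⟩
    apply (valF (L := L) N).injective
    rw [Polynomial.hom_eval₂, valF_comp_evP, map_zero]
    exact h
  · rintro ⟨p, hp, h⟩
    refine ⟨p, hp, ?_⟩
    have h1 := congrArg (valF (L := L) N) h
    rw [Polynomial.hom_eval₂, valF_comp_evP, map_zero] at h1
    exact h1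

theorem mem_chart_iff (t x : FF L N) :
    x ∈ E.chart R ({t} : Set (FF L N)) ↔
      (evP R (t : LaurentSeries L)).IsIntegralElem (x : LaurentSeries L) := by
  rw [E.mem_chart, isIntegral_adjoin_singleton_iff, isIntegralElem_coe_iff]

variable {R}

theorem exists_embL_eq {f : LaurentSeries L} (hf : IsInt R f) :
    ∃ y : LaurentSeries R, embL R L y = f := by
  refine ⟨⟨fun m => ⟨f.coeff m, hf m⟩, ?_⟩, ?_⟩
  · refine f.isPWO_support.mono ?_
    intro m hm
    simp only [Function.mem_support, ne_eq] at hm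
    rw [HahnSeries.mem_support]
    intro h
    exact hm (Subtype.ext h)
  · ext m
    rfl

theorem redL_ne_zero_of_isPrim {y : LaurentSeries R} (h : IsPrim R (embL R L y)) :
    redL R y ≠ 0 := by
  obtain ⟨-, n, hn⟩ := h
  intro h0
  apply hn
  have h1 : IsLocalRing.residue R (y.coeff n) = 0 := by
    rw [← coeffMap_coeff, h0]
    rfl
  rw [IsLocalRing.residue_eq_zero_iff] at h1
  rw [coeffMap_coeff]
  exact ValuationSubring.coe_mem_nonunits_iff.mpr h1

theorem isGInt_of_isGaussInt {u : FF L N} (h : E.IsGaussInt R N u) :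
    IsGInt R (u : LaurentSeries L) := by
  obtain ⟨f, g, -, -, hf, hg, hu⟩ := h
  obtain ⟨y, rfl⟩ := exists_embL_eq hf
  obtain ⟨s, rfl⟩ := exists_embL_eq hg.1
  exact ⟨s, y, redL_ne_zero_of_isPrim hg, by rw [mul_comm, hu]⟩

variable (R)

theorem isGInt_or_inv_FF (x : FF L N) :
    IsGInt R (x : LaurentSeries L) ∨ IsGInt R ((x⁻¹ : FF L N) : LaurentSeries L) := by
  obtain ⟨𝒪', h𝒪'⟩ := E.exists_gaussRing R N
  rcases 𝒪'.mem_or_inv_mem x with h | h
  · exact Or.inl (isGInt_of_isGaussInt N ((h𝒪' x).mp h))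
  · exact Or.inr (isGInt_of_isGaussInt N ((h𝒪' x⁻¹).mp h))

/-- The Gauss valuation subring of `FF L N`. -/
def gaussO : ValuationSubring (FF L N) where
  carrier := {u | IsGInt R (u : LaurentSeries L)}
  mul_mem' {a b} ha hb := by
    rw [Set.mem_ofPred_eq, IntermediateField.coe_mul]
    exact IsGInt.mul ha hb
  one_mem' := by
    rw [Set.mem_ofPred_eq, IntermediateField.coe_one]
    exact isGInt_one
  add_mem' {a b} ha hb := by
    rw [Set.mem_ofPred_eq, IntermediateField.coe_add]
    exact IsGInt.add ha hb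
  zero_mem' := by
    rw [Set.mem_ofPred_eq, IntermediateField.coe_zero]
    exact (gaussQ R L).zero_mem
  neg_mem' {a} ha := by
    rw [Set.mem_ofPred_eq, IntermediateField.coe_neg]
    exact IsGInt.neg ha
  mem_or_inv_mem' x := isGInt_or_inv_FF R N x

variable {R N}

theorem mem_gaussO {u : FF L N} : u ∈ gaussO R N ↔ IsGInt R (u : LaurentSeries L) := Iff.rfl

theorem not_isGInt_inv_C {ϖ : R} (hϖ : Irreducible ϖ) :
    ¬ IsGInt R (1 / HahnSeries.C (algebraMap R L ϖ) : LaurentSeries L) := by
  intro h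
  have h1 := (gredFun_eq_zero_iff hϖ (isGInt_one (R := R) (L := L))).mpr h
  rw [gredFun_one] at h1
  exact one_ne_zero h1

variable (R N)

theorem gaussO_spec (u : FF L N) : u ∈ gaussO R N ↔ E.IsGaussInt R N u := by
  refine ⟨fun hu => ?_, fun h => isGInt_of_isGaussInt N h⟩
  obtain ⟨𝒪', h𝒪'⟩ := E.exists_gaussRing R N
  obtain ⟨ϖ, hϖ⟩ := IsDiscreteValuationRing.exists_irreducible R
  have G := E.gaussRing_of_spec R N 𝒪' h𝒪' ϖ hϖ
  rw [← h𝒪']
  by_contra hcon
  have hinv : u⁻¹ ∈ 𝒪' := (𝒪'.mem_or_inv_mem u).resolve_left hcon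
  have hu0 : u ≠ 0 := by
    rintro rfl
    exact hcon 𝒪'.zero_mem
  rcases G.unif _ hinv with h | h
  · have h1 : IsGInt R ((u⁻¹ / algebraMap R (FF L N) ϖ : FF L N) : LaurentSeries L) :=
      isGInt_of_isGaussInt N ((h𝒪' _).mp h)
    have h2 := (mem_gaussO.mp hu).mul h1
    apply not_isGInt_inv_C hϖ
    have h3 : (u : LaurentSeries L) * ((u⁻¹ / algebraMap R (FF L N) ϖ : FF L N) : LaurentSeries L)
        = 1 / HahnSeries.C (algebraMap R L ϖ) := by
      have h4 : u * (u⁻¹ / algebraMap R (FF L N) ϖ) = 1 / algebraMap R (FF L N) ϖ := by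
        rw [mul_div_assoc', mul_inv_cancel₀ hu0]
      rw [← coe_algebraMap_C R N, ← IntermediateField.coe_mul, h4, IntermediateField.coe_div,
        IntermediateField.coe_one]
    rw [← h3]
    exact h2
  · rw [inv_inv] at h
    exact hcon h

theorem gaussRing {ϖ : R} (hϖ : Irreducible ϖ) : E.GaussRing ϖ (gaussO R N) :=
  E.gaussRing_of_spec R N _ (gaussO_spec R N) ϖ hϖ

/-- Reduction of `q`-expansions on the Gauss ring. -/
def gredO : gaussO R N →+* LaurentSeries 𝕜 where
  toFun x := gredFun R ((x : FF L N) : LaurentSeries L)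
  map_one' := gredFun_one
  map_zero' := gredFun_zero
  map_add' x y := gredFun_add x.2 y.2
  map_mul' x y := gredFun_mul x.2 y.2

theorem gredO_apply (x : gaussO R N) :
    gredO R N x = gredFun R ((x : FF L N) : LaurentSeries L) := rfl

theorem coe_div_algebraMap (x : FF L N) (ϖ : R) :
    ((x / algebraMap R (FF L N) ϖ : FF L N) : LaurentSeries L)
      = (x : LaurentSeries L) / HahnSeries.C (algebraMap R L ϖ) := by
  rw [IntermediateField.coe_div, coe_algebraMap_C]

end

end Fermat.Agent.GR.D.Vert
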