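import Fermat.Agent.GR.D.Vert.Param

/-!
# GR-D, vertical package: the Gauss ring is integral over `R[t]_(ϖ)` (series level)
-/

set_option autoImplicit false
set_option linter.unusedSectionVars false

namespace Fermat.Agent.GR.D.Vert

open ModularCurve Polynomial Fermat.Agent.S28

noncomputable section

variable {R : Type*} [CommRing R] [IsDomain R] [IsDiscreteValuationRing R]
variable {L : Type*} [Field L] [Algebra R L] [IsFractionRing R L] {N : ℕ}

local notation "𝕜" => IsLocalRing.ResidueField R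

theorem jqModC_eq_embL : jqModC L = embL R L (jqModC R) := (S28.coeffMap_jqModC _).symm

theorem isGInt_j : IsGInt R (jqModC L) := by
  rw [jqModC_eq_embL (R := R)]
  exact isGInt_emb _

theorem gredFun_j : gredFun R (jqModC L) = jqModC 𝕜 := by
  rw [jqModC_eq_embL (R := R), gredFun_emb, S28.coeffMap_jqModC]

theorem injective_evP_gredFun_j : Function.Injective (evP 𝕜 (gredFun R (jqModC L))) := by
  rw [gredFun_j]
  exact evP_injective_of_pole _ (order_jqModC_neg _)

/-- `x` lies in `L(j) + L(j) V + … + L(j) V^{n-1}`. -/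
def HasRepr (D : VData R L N) (x : LaurentSeries L) : Prop :=
  ∃ (w : R[X]) (u : Fin D.n → R[X]), w ≠ 0 ∧
    evP R (jqModC L) w * x = ∑ i, evP R (jqModC L) (u i) * embL R L D.V ^ (i : ℕ)

variable (D : VData R L N)

theorem mapRingHom_id' (A : Type*) [CommRing A] :
    Polynomial.mapRingHom (RingHom.id A) = RingHom.id A[X] := by
  ext <;> simp

theorem embL_eval₂ (P : R[X][X]) :
    embL R L (P.eval₂ (evP R (jqModC R)) D.V)
      = P.eval₂ (evP R (jqModC L)) (embL R L D.V) := by
  rw [map_eval₂_evP (RingHom.id R) (embL R L)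
    (coeffMap_algebraMap' (RingHom.id R) (algebraMap R L) fun _ => rfl), S28.coeffMap_jqModC,
    mapRingHom_id', Polynomial.map_id]

theorem VData.root_L : D.W.eval₂ (evP R (jqModC L)) (embL R L D.V) = 0 := by
  rw [← embL_eval₂, D.root, map_zero]

theorem VData.isIntegralElem_V : (evP R (jqModC L)).IsIntegralElem (embL R L D.V) :=
  ⟨D.W, D.monic, D.root_L⟩

theorem exists_repr_normalized {x : LaurentSeries L} (hx : IsGInt R x) (hrep : HasRepr D x) :
    ∃ (w : R[X]) (u : Fin D.n → R[X]), w.map (IsLocalRing.residue R) ≠ 0 ∧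
      evP R (jqModC L) w * x = ∑ i, evP R (jqModC L) (u i) * embL R L D.V ^ (i : ℕ) := by
  obtain ⟨w, u, hw, h⟩ := hrep
  refine exists_normalized isGInt_j (fun i : Fin D.n => embL R L D.V ^ (i : ℕ))
    (fun i => (isGInt_emb _).pow _) ?_ hx w u hw h
  intro u hu
  apply D.indep
  rw [← hu, gredFun_j]
  refine Finset.sum_congr rfl fun i _ => ?_
  rw [gredFun_pow (isGInt_emb _), gredFun_emb]

/-- the Gauss ring is integral over `R[j]_(ϖ)`. -/
theorem exists_isIntegralElem_j {x : LaurentSeries L} (hx : IsGInt R x) (hrep : HasRepr D x) :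
    ∃ w : R[X], w.map (IsLocalRing.residue R) ≠ 0 ∧
      (evP R (jqModC L)).IsIntegralElem (evP R (jqModC L) w * x) := by
  obtain ⟨w, u, hw, h⟩ := exists_repr_normalized D hx hrep
  refine ⟨w, hw, ?_⟩
  rw [h]
  refine isIntegralElem_sum _ _ _ fun i _ => ?_
  exact RingHom.IsIntegralElem.mul _ (RingHom.isIntegralElem_map _)
    (isIntegralElem_pow _ D.isIntegralElem_V _)

theorem evP_mem_adjoin {t : LaurentSeries L} (hjt : jqModC L ∈ IntermediateField.adjoin L {t})
    (c : R[X]) : evP R (jqModC L) c ∈ IntermediateField.adjoin L {t} := by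
  rw [evP_eq_evP_map]
  have hle : Algebra.adjoin L {jqModC L} ≤ (IntermediateField.adjoin L {t}).toSubalgebra :=
    Algebra.adjoin_le (Set.singleton_subset_iff.mpr hjt)
  exact hle (Polynomial.aeval_mem_adjoin_singleton L (jqModC L))

/-- the Gauss ring is integral over `R[t]_(ϖ)`. -/
theorem exists_isIntegralElem {t : LaurentSeries L} (ht : IsGInt R t)
    (htr : Function.Injective (evP 𝕜 (gredFun R t)))
    (hjt : jqModC L ∈ IntermediateField.adjoin L {t})
    {x : LaurentSeries L} (hx : IsGInt R x) (hrep : HasRepr D x) :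
    ∃ b : R[X], b.map (IsLocalRing.residue R) ≠ 0 ∧
      (evP R t).IsIntegralElem (evP R t b * x) := by
  obtain ⟨w, hw, P, hPm, hP⟩ := exists_isIntegralElem_j D hx hrep
  obtain ⟨b1, hb1, hint1⟩ := exists_mul_isIntegralElem (R := R) (t := t)
    (x := evP R (jqModC L) w * x) (P.map (evP R (jqModC L))) (hPm.map _)
    (by rw [eval_map]; exact hP) (by
      intro i
      rw [coeff_map]
      exact exists_frac_of_mem_adjoin ht htr (evP_mem_adjoin hjt _) (isGInt_evP isGInt_j _))
  have hg0 : gredFun R (evP R (jqModC L) w) ≠ 0 := by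
    rw [gredFun_evP isGInt_j]
    exact (map_ne_zero_iff _ injective_evP_gredFun_j).mpr hw
  have hw0 : evP R (jqModC L) w ≠ 0 := by
    intro h1
    rw [h1] at hg0
    exact hg0 gredFun_zero
  obtain ⟨a2, b2, hb2, h2⟩ := exists_frac_of_mem_adjoin ht htr
    (inv_mem (evP_mem_adjoin hjt w)) ((isGInt_evP isGInt_j w).inv hg0)
  refine ⟨b1 * b2, by rw [Polynomial.map_mul]; exact mul_ne_zero hb1 hb2, ?_⟩
  have : evP R t (b1 * b2) * x = (evP R t b1 * (evP R (jqModC L) w * x)) * evP R t a2 := by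
    rw [← h2, map_mul]
    have key : ∀ α β γ ξ : LaurentSeries L, γ ≠ 0 → α * β * ξ = α * (γ * ξ) * (β * γ⁻¹) := by
      intro α β γ ξ hγ
      field_simp
    exact key _ _ _ _ hw0
  rw [this]
  exact RingHom.IsIntegralElem.mul _ hint1 (RingHom.isIntegralElem_map _)

theorem not_C_dvd_iff {ϖ : R} (hϖ : Irreducible ϖ) (b : R[X]) :
    ¬ C ϖ ∣ b ↔ b.map (IsLocalRing.residue R) ≠ 0 :=
  not_congr (map_eq_zero_iff_C_dvd _ (residue_eq_zero_iff_dvd hϖ) b).symm

/-- saturation. -/
theorem isIntegralElem_div {ϖ : R} (hϖ : Irreducible ϖ) {t : LaurentSeries L} (ht : IsGInt R t)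
    (htr : Function.Injective (evP 𝕜 (gredFun R t)))
    (hjt : jqModC L ∈ IntermediateField.adjoin L {t})
    {x : LaurentSeries L} (hxint : (evP R t).IsIntegralElem x)
    (hx : IsGInt R (x / HahnSeries.C (algebraMap R L ϖ)))
    (hrep : HasRepr D (x / HahnSeries.C (algebraMap R L ϖ))) :
    (evP R t).IsIntegralElem (x / HahnSeries.C (algebraMap R L ϖ)) := by
  obtain ⟨b, hb, hint⟩ := exists_isIntegralElem D ht htr hjt hx hrep
  have hprime : Prime (C ϖ : R[X]) := Polynomial.prime_C_iff.mpr hϖ.prime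
  refine isIntegralElem_of_mul_of_prime (evP R t) (evP_injective_of_red ht htr) hprime
    ((not_C_dvd_iff hϖ b).mpr hb) ?_ hint
  have h1 : evP R t (C ϖ) = HahnSeries.C (algebraMap R L ϖ) := by
    show aeval t (C ϖ) = _
    rw [aeval_C, algebraMap_laurent_eq_single]
    rfl
  rw [h1, mul_div_cancel₀ _ (embL_C_ne_zero hϖ)]
  exact hxint

end

end Fermat.Agent.GR.D.Vert
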