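import Fermat.Agent.GR.D.Vert.Series

/-!
# GR-D, vertical package: change of parameter `j ↝ t` (series level)
-/

set_option autoImplicit false
set_option linter.unusedSectionVars false

namespace Fermat.Agent.GR.D.Vert

open ModularCurve Polynomial Fermat.Agent.S28

noncomputable section

variable {R : Type*} [CommRing R] [IsDomain R] [IsDiscreteValuationRing R]
variable {L : Type*} [Field L] [Algebra R L] [IsFractionRing R L]

local notation "𝕜" => IsLocalRing.ResidueField R

/-- `evP R t` is injective as soon as the reduction of `t` is transcendental. -/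
theorem evP_injective_of_red {t : LaurentSeries L} (ht : IsGInt R t)
    (htr : Function.Injective (evP 𝕜 (gredFun R t))) : Function.Injective (evP R t) := by
  rw [injective_iff_map_eq_zero]
  intro w hw
  by_contra hw0
  obtain ⟨w', u', hw', h⟩ := exists_normalized (n := 0) ht (fun i => i.elim0) (fun i => i.elim0)
    (fun u _ => Subsingleton.elim _ _) (x := 1) isGInt_one w (fun i => i.elim0) hw0
    (by rw [hw, zero_mul]; simp)
  rw [mul_one, Finset.univ_eq_empty, Finset.sum_empty] at h
  have h1 := congrArg (gredFun R) h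
  rw [gredFun_evP ht, gredFun_zero] at h1
  exact hw' (htr (h1.trans (map_zero _).symm))

/-- Gauss' lemma: `L(t) ∩ 𝒪 = R[t]_(ϖ)`. -/
theorem exists_frac_of_mem_adjoin {t : LaurentSeries L} (ht : IsGInt R t)
    (htr : Function.Injective (evP 𝕜 (gredFun R t))) {y : LaurentSeries L}
    (hy : y ∈ IntermediateField.adjoin L {t}) (hyi : IsGInt R y) :
    ∃ a b : R[X], b.map (IsLocalRing.residue R) ≠ 0 ∧ evP R t b * y = evP R t a := by
  obtain ⟨r, s, rfl⟩ := (IntermediateField.mem_adjoin_simple_iff L y).mp hy
  by_cases hs : aeval t s = 0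
  · refine ⟨0, 1, by rw [Polynomial.map_one]; exact one_ne_zero, ?_⟩
    rw [hs, div_zero, mul_zero, map_zero]
  obtain ⟨br, hbrm, hbr⟩ := IsLocalization.integerNormalization_spec (nonZeroDivisors R) r
  obtain ⟨bs, hbsm, hbs⟩ := IsLocalization.integerNormalization_spec (nonZeroDivisors R) s
  set r' := IsLocalization.integerNormalization (nonZeroDivisors R) r
  set s' := IsLocalization.integerNormalization (nonZeroDivisors R) s
  have hr' : evP R t r' = algebraMap R (LaurentSeries L) br * aeval t r := by
    rw [evP_eq_evP_map, hbr, Algebra.smul_def, Polynomial.algebraMap_apply, map_mul,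
      algebraMap_laurent_tower]
    congr 1
    show aeval t (C _) = _
    rw [aeval_C]
  have hs' : evP R t s' = algebraMap R (LaurentSeries L) bs * aeval t s := by
    rw [evP_eq_evP_map, hbs, Algebra.smul_def, Polynomial.algebraMap_apply, map_mul,
      algebraMap_laurent_tower]
    congr 1
    show aeval t (C _) = _
    rw [aeval_C]
  have hC : ∀ c : R, evP R t (C c) = algebraMap R (LaurentSeries L) c := fun c => by
    show aeval t (C c) = _
    rw [aeval_C]
  have hne : ∀ c ∈ nonZeroDivisors R, algebraMap R (LaurentSeries L) c ≠ 0 := by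
    intro c hcm
    rw [algebraMap_laurent_eq_single]
    intro h0
    have h1 : algebraMap R L c = 0 := by
      have := congrArg (fun f : LaurentSeries L => f.coeff 0) h0
      simpa only [HahnSeries.coeff_single_same, HahnSeries.coeff_zero] using this
    exact nonZeroDivisors.ne_zero hcm
      ((map_eq_zero_iff _ (IsFractionRing.injective R L)).mp h1)
  have hrel : evP R t (C (br : R) * s') * (aeval t r / aeval t s)
      = ∑ _i : Fin 1, evP R t (C (bs : R) * r') * 1 := by
    rw [Fin.sum_univ_one, mul_one, map_mul, map_mul, hC, hC, hr', hs']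
    have key : ∀ α β S Q : LaurentSeries L, S ≠ 0 → (α * (β * S)) * (Q / S) = β * (α * Q) := by
      intro α β S Q hS
      field_simp
    exact key _ _ _ _ hs
  have hw0 : C (br : R) * s' ≠ 0 := by
    intro h0
    have h1 : evP R t (C (br : R) * s') = 0 := by rw [h0, map_zero]
    rw [map_mul, hC, hs'] at h1
    exact mul_ne_zero (hne br hbrm) (mul_ne_zero (hne bs hbsm) hs) h1
  obtain ⟨w', u', hw', h⟩ := exists_normalized (n := 1) ht (fun _ => 1) (fun _ => isGInt_one)
    (by
      intro u hu
      rw [Fin.sum_univ_one, gredFun_one, mul_one] at hu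
      funext i
      rw [Subsingleton.elim i 0]
      exact htr (hu.trans (map_zero _).symm)) hyi _ (fun _ => C (bs : R) * r') hw0 hrel
  refine ⟨u' 0, w', hw', ?_⟩
  rw [h, Fin.sum_univ_one, mul_one]

/-- Clearing denominators in an integral equation. -/
theorem exists_mul_isIntegralElem {t x : LaurentSeries L} (p : (LaurentSeries L)[X])
    (hp : p.Monic) (hx : p.eval x = 0)
    (hc : ∀ i, ∃ a b : R[X], b.map (IsLocalRing.residue R) ≠ 0 ∧
      evP R t b * p.coeff i = evP R t a) :
    ∃ b : R[X], b.map (IsLocalRing.residue R) ≠ 0 ∧ (evP R t).IsIntegralElem (evP R t b * x) := by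
  classical
  choose a b hb hab using hc
  set n := p.natDegree with hn
  set B : R[X] := ∏ i ∈ Finset.range n, b i with hB
  have hBne : B.map (IsLocalRing.residue R) ≠ 0 := by
    rw [hB, Polynomial.map_prod]
    exact Finset.prod_ne_zero_iff.mpr fun i _ => hb i
  let c : ℕ → R[X] := fun i => a i * ∏ j ∈ (Finset.range n).erase i, b j
  have hcB : ∀ i ∈ Finset.range n, evP R t (c i) = evP R t B * p.coeff i := by
    intro i hi
    rw [hB, ← Finset.mul_prod_erase _ _ hi, map_mul, map_mul, ← hab i]
    ring
  refine ⟨B, hBne, X ^ n + ∑ i ∈ Finset.range n, C (c i * B ^ (n - 1 - i)) * X ^ i, ?_, ?_⟩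
  · apply monic_X_pow_add
    refine (degree_sum_le _ _).trans_lt ?_
    refine (Finset.sup_lt_iff (WithBot.bot_lt_coe n)).mpr ?_
    intro i hi
    exact (degree_C_mul_X_pow_le i _).trans_lt (WithBot.coe_lt_coe.mpr (Finset.mem_range.mp hi))
  · have h1 : evP R t B ^ n * p.eval x = 0 := by rw [hx, mul_zero]
    rw [← h1, eval_eq_sum_range, ← hn, Finset.sum_range_succ, hn, hp.coeff_natDegree, ← hn, one_mul,
      eval₂_add, eval₂_finsetSum, eval₂_X_pow, mul_add, Finset.mul_sum, add_comm, mul_pow]
    congr 1
    refine Finset.sum_congr rfl fun i hi => ?_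
    have hi' : i < n := Finset.mem_range.mp hi
    rw [eval₂_mul, eval₂_C, eval₂_X_pow, map_mul, map_pow, hcB i hi, mul_pow]
    have : evP R t B ^ n = evP R t B * evP R t B ^ (n - 1 - i) * evP R t B ^ i := by
      rw [← pow_succ', ← pow_add]
      congr 1
      omega
    rw [this]
    ring

end

end Fermat.Agent.GR.D.Vert
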