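import Fermat.Agent.GR.D.Vert.Data
import Fermat.Agent.S28.QEPCore

/-!
# GR-D, vertical package: series level statements

Everything here is about elements of `L((q))`; the function field only enters through the existence of
a representation `w(j) x = ∑ u_i(j) V^i`.
-/

set_option autoImplicit false
set_option linter.unusedSectionVars false

namespace Fermat.Agent.GR.D.Vert

open ModularCurve Polynomial Fermat.Agent.S28

noncomputable section

variable {R : Type*} [CommRing R] [IsDomain R] [IsDiscreteValuationRing R]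
variable {L : Type*} [Field L] [Algebra R L] [IsFractionRing R L]

local notation "𝕜" => IsLocalRing.ResidueField R

theorem IsGInt.sum {ι : Type*} (s : Finset ι) (f : ι → LaurentSeries L)
    (hf : ∀ i ∈ s, IsGInt R (f i)) : IsGInt R (∑ i ∈ s, f i) :=
  (gaussQ R L).sum_mem hf

theorem IsGInt.pow {x : LaurentSeries L} (hx : IsGInt R x) (n : ℕ) : IsGInt R (x ^ n) :=
  (gaussQ R L).pow_mem hx n

theorem gredFun_zero : gredFun R (0 : LaurentSeries L) = 0 := map_zero (gredHom R L)

theorem gredFun_one : gredFun R (1 : LaurentSeries L) = 1 := map_one (gredHom R L)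

theorem isGInt_one : IsGInt R (1 : LaurentSeries L) := (gaussQ R L).one_mem

theorem gredFun_sum {ι : Type*} (s : Finset ι) (f : ι → LaurentSeries L)
    (hf : ∀ i ∈ s, IsGInt R (f i)) : gredFun R (∑ i ∈ s, f i) = ∑ i ∈ s, gredFun R (f i) := by
  classical
  induction s using Finset.induction_on with
  | empty => rw [Finset.sum_empty, Finset.sum_empty, gredFun_zero]
  | insert a s ha ih =>
    rw [Finset.sum_insert ha, Finset.sum_insert ha,
      gredFun_add (hf a (Finset.mem_insert_self a s))
        (IsGInt.sum s f fun i hi => hf i (Finset.mem_insert_of_mem hi)),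
      ih fun i hi => hf i (Finset.mem_insert_of_mem hi)]

theorem gredFun_pow {x : LaurentSeries L} (hx : IsGInt R x) (n : ℕ) :
    gredFun R (x ^ n) = gredFun R x ^ n := by
  induction n with
  | zero => rw [pow_zero, pow_zero, gredFun_one]
  | succ n ih => rw [pow_succ, pow_succ, gredFun_mul (hx.pow n) hx, ih]

theorem algebraMap_eq_embL (r : R) :
    algebraMap R (LaurentSeries L) r = embL R L (HahnSeries.C r) := by
  rw [algebraMap_laurent_eq_single, coeffMap_C]
  rfl

/-- polynomial expressions in a Gauss-integral series. -/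
theorem isGInt_evP_and {t : LaurentSeries L} (ht : IsGInt R t) (p : R[X]) :
    IsGInt R (evP R t p) ∧
      gredFun R (evP R t p) = evP 𝕜 (gredFun R t) (p.map (IsLocalRing.residue R)) := by
  induction p using Polynomial.induction_on' with
  | add p q hp hq =>
    refine ⟨by rw [map_add]; exact hp.1.add hq.1, ?_⟩
    rw [map_add, gredFun_add hp.1 hq.1, hp.2, hq.2, Polynomial.map_add, map_add]
  | monomial a c =>
    have h1 : evP R t (monomial a c) = embL R L (HahnSeries.C c) * t ^ a := by
      show aeval t (monomial a c) = _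
      rw [aeval_monomial, algebraMap_eq_embL]
    refine ⟨by rw [h1]; exact (isGInt_emb _).mul (ht.pow a), ?_⟩
    rw [h1, gredFun_mul (isGInt_emb _) (ht.pow a), gredFun_emb, gredFun_pow ht, coeffMap_C,
      Polynomial.map_monomial]
    show _ = aeval (gredFun R t) (monomial a (IsLocalRing.residue R c))
    rw [aeval_monomial, algebraMap_laurent_eq_single]
    rfl

theorem isGInt_evP {t : LaurentSeries L} (ht : IsGInt R t) (p : R[X]) : IsGInt R (evP R t p) :=
  (isGInt_evP_and ht p).1

theorem gredFun_evP {t : LaurentSeries L} (ht : IsGInt R t) (p : R[X]) :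
    gredFun R (evP R t p) = evP 𝕜 (gredFun R t) (p.map (IsLocalRing.residue R)) :=
  (isGInt_evP_and ht p).2

theorem residue_eq_zero_iff_dvd {ϖ : R} (hϖ : Irreducible ϖ) (r : R) :
    IsLocalRing.residue R r = 0 ↔ ϖ ∣ r := by
  rw [IsLocalRing.residue_eq_zero_iff, hϖ.maximalIdeal_eq, Ideal.mem_span_singleton]

theorem evP_C_ne_zero' {ϖ : R} (hϖ : Irreducible ϖ) (t : LaurentSeries L) :
    evP R t (C ϖ) ≠ 0 := by
  have : evP R t (C ϖ) = HahnSeries.C (algebraMap R L ϖ) := by
    show aeval t (C ϖ) = _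
    rw [aeval_C, algebraMap_laurent_eq_single]
    rfl
  rw [this]
  exact embL_C_ne_zero hϖ

/-- Normalisation of a relation: if the reductions of the `e i` are independent over `𝕜[t̄]`, then a
Gauss-integral `x` in the `L(t)`-span of the `e i` lies in the `R[t]_(ϖ)`-span. -/
theorem exists_normalized_aux {ϖ : R} (hϖ : Irreducible ϖ) {n : ℕ} {t : LaurentSeries L}
    (ht : IsGInt R t) (e : Fin n → LaurentSeries L) (he : ∀ i, IsGInt R (e i))
    (hind : ∀ u : Fin n → 𝕜[X], ∑ i, evP 𝕜 (gredFun R t) (u i) * gredFun R (e i) = 0 → u = 0)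
    {x : LaurentSeries L} (hx : IsGInt R x) (d : ℕ) :
    ∀ (w : R[X]) (u : Fin n → R[X]), (∃ a, ¬ ϖ ^ d ∣ w.coeff a) →
      evP R t w * x = ∑ i, evP R t (u i) * e i →
      ∃ (w' : R[X]) (u' : Fin n → R[X]), w'.map (IsLocalRing.residue R) ≠ 0 ∧
        evP R t w' * x = ∑ i, evP R t (u' i) * e i := by
  induction d with
  | zero =>
    rintro w u ⟨a, ha⟩ -
    exact absurd (by simp) ha
  | succ d ih =>
    rintro w u ⟨a, ha⟩ h
    by_cases h0 : w.map (IsLocalRing.residue R) = 0
    · have h1 := congrArg (gredFun R) h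
      rw [gredFun_mul (isGInt_evP ht w) hx, gredFun_evP ht, h0, map_zero, zero_mul,
        gredFun_sum _ _ fun i _ => (isGInt_evP ht (u i)).mul (he i)] at h1
      have h2 : (fun i => (u i).map (IsLocalRing.residue R)) = 0 := by
        apply hind
        rw [h1]
        refine Finset.sum_congr rfl fun i _ => ?_
        rw [gredFun_mul (isGInt_evP ht (u i)) (he i), gredFun_evP ht]
      obtain ⟨w1, rfl⟩ := (map_eq_zero_iff_C_dvd _ (residue_eq_zero_iff_dvd hϖ) w).mp h0
      have h3 : ∀ i, C ϖ ∣ u i := fun i =>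
        (map_eq_zero_iff_C_dvd _ (residue_eq_zero_iff_dvd hϖ) (u i)).mp (congrFun h2 i)
      choose u1 hu1 using h3
      refine ih w1 u1 ⟨a, fun hdvd => ha ?_⟩ ?_
      · rw [coeff_C_mul, pow_succ']
        exact mul_dvd_mul_left ϖ hdvd
      · apply mul_left_cancel₀ (evP_C_ne_zero' hϖ t)
        rw [← mul_assoc, ← map_mul, h, Finset.mul_sum]
        refine Finset.sum_congr rfl fun i _ => ?_
        rw [hu1 i, map_mul, mul_assoc]
    · exact ⟨w, u, h0, h⟩

theorem exists_normalized {n : ℕ} {t : LaurentSeries L}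
    (ht : IsGInt R t) (e : Fin n → LaurentSeries L) (he : ∀ i, IsGInt R (e i))
    (hind : ∀ u : Fin n → 𝕜[X], ∑ i, evP 𝕜 (gredFun R t) (u i) * gredFun R (e i) = 0 → u = 0)
    {x : LaurentSeries L} (hx : IsGInt R x) (w : R[X]) (u : Fin n → R[X]) (hw : w ≠ 0)
    (h : evP R t w * x = ∑ i, evP R t (u i) * e i) :
    ∃ (w' : R[X]) (u' : Fin n → R[X]), w'.map (IsLocalRing.residue R) ≠ 0 ∧
      evP R t w' * x = ∑ i, evP R t (u' i) * e i := by
  obtain ⟨ϖ, hϖ⟩ := IsDiscreteValuationRing.exists_irreducible R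
  obtain ⟨a, ha⟩ : ∃ a, w.coeff a ≠ 0 := by
    by_contra hcon
    exact hw (Polynomial.ext fun a => by_contra fun ha => hcon ⟨a, ha⟩)
  obtain ⟨m, v, hv⟩ := IsDiscreteValuationRing.eq_unit_mul_pow_irreducible ha hϖ
  refine exists_normalized_aux hϖ ht e he hind hx (m + 1) w u ⟨a, ?_⟩ h
  rw [hv]
  intro hdvd
  rw [pow_succ, mul_comm (v : R)] at hdvd
  have h1 := (mul_dvd_mul_iff_left (pow_ne_zero m hϖ.ne_zero)).mp hdvd
  exact hϖ.not_isUnit (isUnit_of_dvd_unit h1 v.isUnit)

/-- converse: a relation with unit denominator gives a Gauss-integral element. -/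
theorem isGInt_of_relation {n : ℕ} {t : LaurentSeries L} (ht : IsGInt R t)
    (htr : Function.Injective (evP 𝕜 (gredFun R t)))
    (e : Fin n → LaurentSeries L) (he : ∀ i, IsGInt R (e i)) {x : LaurentSeries L}
    (w : R[X]) (u : Fin n → R[X]) (hw : w.map (IsLocalRing.residue R) ≠ 0)
    (h : evP R t w * x = ∑ i, evP R t (u i) * e i) : IsGInt R x := by
  have h0 : gredFun R (evP R t w) ≠ 0 := by
    rw [gredFun_evP ht]
    exact (map_ne_zero_iff _ htr).mpr hw
  have hw0 : evP R t w ≠ 0 := by
    intro h1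
    rw [h1] at h0
    exact h0 gredFun_zero
  have : x = (evP R t w)⁻¹ * ∑ i, evP R t (u i) * e i := by
    rw [← h, ← mul_assoc, inv_mul_cancel₀ hw0, one_mul]
  rw [this]
  exact ((isGInt_evP ht w).inv h0).mul (IsGInt.sum _ _ fun i _ => (isGInt_evP ht (u i)).mul (he i))

end

end Fermat.Agent.GR.D.Vert
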