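import Fermat.Agent.GR.D.Vert.Integral
import Fermat.Agent.GR.D.Vert.Euler

/-!
# GR-D, vertical package: the Gauss valuation is unramified (trace-dual form), abstract version

`F` a field with an embedding `ι : F → L((q))`, `K ⊆ F` a subfield containing `R[j]`.
-/

set_option autoImplicit false
set_option linter.unusedSectionVars false
set_option linter.style.haveILetI false

namespace Fermat.Agent.GR.D.Vert

open ModularCurve Polynomial Fermat.Agent.S28

noncomputable section

variable {R : Type*} [CommRing R] [IsDomain R] [IsDiscreteValuationRing R]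
variable {L : Type*} [Field L] [Algebra R L] [IsFractionRing R L] {N : ℕ}

local notation "𝕜" => IsLocalRing.ResidueField R

/-- the field of fractions of `R((q))` inside `L((q))`. -/
abbrev fracQ (R : Type*) [CommRing R] [IsDomain R] [IsDiscreteValuationRing R]
    (L : Type*) [Field L] [Algebra R L] [IsFractionRing R L] : Subfield (LaurentSeries L) :=
  fracRange (embL R L) (embL_injective R L)

theorem IsGInt.mem_fracQ {x : LaurentSeries L} (hx : IsGInt R x) : x ∈ fracQ R L := by
  obtain ⟨s, y, hs, h⟩ := hx
  have hs0 : embL R L s ≠ 0 := by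
    intro h0
    apply hs
    rw [embL_injective R L (h0.trans (map_zero _).symm), map_zero]
  have : x = embL R L y / embL R L s := by
    rw [← h, mul_div_assoc, mul_comm, div_mul_cancel₀ _ hs0]
  rw [this]
  exact div_mem (range_le_fracRange _ _ y) (range_le_fracRange _ _ s)

theorem isGInt_or_inv_of_mem_fracQ {x : LaurentSeries L} (hx : x ∈ fracQ R L) :
    IsGInt R x ∨ IsGInt R x⁻¹ := by
  obtain ⟨ϖ, hϖ⟩ := IsDiscreteValuationRing.exists_irreducible R
  obtain ⟨y, rfl⟩ := hx
  obtain ⟨a, b, hb, rfl⟩ := IsFractionRing.div_surjective (A := LaurentSeries R) y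
  have hb0 : b ≠ 0 := nonZeroDivisors.ne_zero hb
  have hb1 : embL R L b ≠ 0 := fun h0 => hb0 (embL_injective R L (h0.trans (map_zero _).symm))
  refine isGInt_or_inv hϖ hb0 (a := a) ?_
  rw [map_div₀, IsFractionRing.lift_algebraMap, IsFractionRing.lift_algebraMap,
    mul_div_cancel₀ _ hb1]

/-- The Gauss valuation subring of a subfield of `Frac R((q))`. -/
def gaussSub {K : Type*} [Field K] [Algebra K (LaurentSeries L)]
    (E : IntermediateField K (LaurentSeries L)) (hE : ∀ e ∈ E, e ∈ fracQ R L) :
    ValuationSubring E where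
  carrier := {u | IsGInt R (u : LaurentSeries L)}
  mul_mem' {a b} ha hb := by
    rw [Set.mem_ofPred_eq, IntermediateField.coe_mul]
    exact IsGInt.mul ha hb
  one_mem' := by
    rw [Set.mem_ofPred_eq, IntermediateField.coe_one]
    exact isGInt_one
  add_mem' {a b} ha hb := by
    rw [Set.mem_ofPred_eq, IntermediateField.coe_add]
    exact IsGInt.add ha hb
  zero_mem' := by
    rw [Set.mem_ofPred_eq, IntermediateField.coe_zero]
    exact (gaussQ R L).zero_mem
  neg_mem' {a} ha := by
    rw [Set.mem_ofPred_eq, IntermediateField.coe_neg]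
    exact IsGInt.neg ha
  mem_or_inv_mem' x := by
    rw [Set.mem_ofPred_eq, Set.mem_ofPred_eq, IntermediateField.coe_inv]
    exact isGInt_or_inv_of_mem_fracQ (hE _ x.2)

theorem unr_abstract (D : VData R L N) {F K : Type*} [Field F] [Field K] [Algebra K F] [CharZero K]
    (ι : F →+* LaurentSeries L) (θ : R[X] →+* K)
    (hθ : (ι.comp (algebraMap K F)).comp θ = evP R (jqModC L))
    (hfrac : ∀ y : F, ι y ∈ fracQ R L) (hrep : ∀ y : F, HasRepr D (ι y)) :
    FiniteDimensional K F ∧ ∀ x : F,
      (∀ c : F, IsGInt R (ι c) → IsGInt R (ι (algebraMap K F (Algebra.trace K F (x * c))))) →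
        IsGInt R (ι x) := by
  let ψ : K →+* LaurentSeries L := ι.comp (algebraMap K F)
  letI : Algebra K (LaurentSeries L) := ψ.toAlgebra
  have hψ : ∀ κ : K, algebraMap K (LaurentSeries L) κ = ι (algebraMap K F κ) := fun _ => rfl
  have hψθ : ∀ c : R[X], algebraMap K (LaurentSeries L) (θ c) = evP R (jqModC L) c := fun c =>
    congrArg (fun f : R[X] →+* LaurentSeries L => f c) hθ
  set VL : LaurentSeries L := embL R L D.V with hVL
  have haeval : ∀ P : R[X][X], aeval VL (P.map θ) = P.eval₂ (evP R (jqModC L)) VL := by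
    intro P
    rw [aeval_def, eval₂_map]
    show eval₂ (ψ.comp θ) VL P = _
    rw [hθ]
  have hVint : IsIntegral K VL := ⟨D.W.map θ, D.monic.map θ, by
    have := haeval D.W
    rw [aeval_def] at this
    rw [this, D.root_L]⟩
  let E : IntermediateField K (LaurentSeries L) := IntermediateField.adjoin K {VL}
  have hVE : VL ∈ E := IntermediateField.mem_adjoin_simple_self K VL
  have hFE : ∀ y : F, ι y ∈ E := by
    intro y
    obtain ⟨w, u, hw, h⟩ := hrep y
    have hw0 : evP R (jqModC L) w ≠ 0 :=
      (map_ne_zero_iff _ (evP_injective_of_pole' _ (order_jqModC_neg L))).mpr hw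
    have : ι y = (evP R (jqModC L) w)⁻¹ * ∑ i, evP R (jqModC L) (u i) * VL ^ (i : ℕ) := by
      rw [← h, ← mul_assoc, inv_mul_cancel₀ hw0, one_mul]
    rw [this]
    refine mul_mem (inv_mem ?_) (sum_mem fun i _ => mul_mem ?_ (pow_mem hVE _))
    · rw [← hψθ]
      exact E.algebraMap_mem _
    · rw [← hψθ]
      exact E.algebraMap_mem _
  have hE : ∀ e ∈ E, e ∈ fracQ R L := by
    have hle : Subfield.closure (Set.range (algebraMap K (LaurentSeries L)) ∪ {VL})
        ≤ fracQ R L := by
      rw [Subfield.closure_le]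
      rintro s (⟨κ, rfl⟩ | hs)
      · exact hfrac _
      · rw [Set.mem_singleton_iff.mp hs]
        exact range_le_fracRange _ _ _
    exact fun e he => hle he
  let O : ValuationSubring E := gaussSub E hE
  have hO : ∀ e : E, e ∈ O ↔ IsGInt R (e : LaurentSeries L) := fun _ => Iff.rfl
  let φ : F →+* E := ι.codRestrict E hFE
  letI : Algebra F E := φ.toAlgebra
  have hφ : ∀ y : F, ((algebraMap F E y : E) : LaurentSeries L) = ι y := fun _ => rfl
  haveI : IsScalarTower K F E := IsScalarTower.of_algebraMap_eq fun κ => Subtype.ext rfl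
  let pb : PowerBasis K E := IntermediateField.adjoin.powerBasis hVint
  have hgen : pb.gen = IntermediateField.AdjoinSimple.gen K VL := rfl
  haveI : FiniteDimensional K E := pb.finite
  haveI : Algebra.IsAlgebraic K E := Algebra.IsAlgebraic.of_finite K E
  haveI : Algebra.IsSeparable K E := Algebra.IsAlgebraic.isSeparable_of_perfectField
  have hcoeK : ∀ κ : K, ((algebraMap K E κ : E) : LaurentSeries L)
      = algebraMap K (LaurentSeries L) κ := fun _ => rfl
  have hcoe_aeval : ∀ P : R[X][X], ((aeval pb.gen (P.map θ) : E) : LaurentSeries L)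
      = embL R L (P.eval₂ (evP R (jqModC R)) D.V) := by
    intro P
    rw [hgen, IntermediateField.AdjoinSimple.coe_aeval_gen_apply, haeval, embL_eval₂]
  refine ⟨FiniteDimensional.left K F E, fun x hx => ?_⟩
  rw [← hφ, ← hO]
  have hδ : gredFun R (embL R L ((derivative D.W).eval₂ (evP R (jqModC R)) D.V)) ≠ 0 := by
    rw [gredFun_emb]
    exact D.simple
  refine mem_of_trace_mem_of_tower pb O (D.W.map θ) (D.monic.map θ) ?_ ?_ ?_ ?_ x ?_
  · intro i
    rw [hO, hcoeK, coeff_map, hψθ]
    exact isGInt_evP isGInt_j _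
  · apply Subtype.ext
    rw [hcoe_aeval, D.root, map_zero]
    rfl
  · intro h0
    apply hδ
    rw [Polynomial.derivative_map] at h0
    rw [← hcoe_aeval, h0, IntermediateField.coe_zero]
    exact gredFun_zero
  · rw [hO, IntermediateField.coe_inv, Polynomial.derivative_map, hcoe_aeval]
    exact (isGInt_emb _).inv hδ
  · intro c hc
    rw [hO, hφ] at hc
    rw [hO, hcoeK, hψ]
    exact hx c hc

end

end Fermat.Agent.GR.D.Vert
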